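import Fermat.Agent.H74.ES1KL.SplitGB
import Fermat.Agent.H54.KL.Dict

/-!
# P-ES1 / ES1-KL, GB1 tower step in the chart language, root / split forms (helper74)

Setting of `Fermat.Agent.H22.KL`: `A` a discrete valuation ring with uniformiser `ϖ`, `E₀ ⊆ E`
fields of characteristic zero, `x ∈ E₀` transcendental over `A`.

* `rootGoodBasis` : `E = E₀(v)`, `v` a root of a monic `Q ∈ E₀[X]` with coefficients in the Gauss
  closure `C₀(x)` of `E₀`, `Q'(v) ≠ 0`, `1 / Q'(v)` in the Gauss closure of `E`.  Then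
  `GoodBasis A E₀ ϖ x → GoodBasis A E ϖ x`.
* `splitGoodBasis` : `Q = ∏_{i ∈ I} (X - v i)` in `E[X]` with distinct roots, `E = E₀(v i₀)`,
  `d = ∏_{i} ∏_{j ≠ i} (v i - v j) ∈ E₀` with `1 / d ∈ C₀(x)`.  Then
  `GoodBasis A E₀ ϖ x → GoodBasis A E ϖ x`.

Application (GB1): `E₀ = K₁ F₀(M)`, `E = K₁ F₁(M)`, `I = (ℤ/M)ˣ / ± 1`, `v d = v_d`,
`Q = ∏ (X - v_d) ∈ F₀(M)[X]`; the coefficients of `Q` and `d` have integral `q`-expansions, the
leading coefficient of `d` is `± 1` (`GenSepStatement`), so `ModelQExpGen` for `F₀(M)` gives the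
hypotheses on `Q` and `d`.
-/

set_option autoImplicit false
set_option linter.style.haveILetI false
set_option linter.unusedSectionVars false

noncomputable section

namespace Fermat.Agent.H74.ES1KL

open Polynomial
open Fermat.Agent.H22.KL
open Fermat.Agent.H54.KLDict
open Fermat.Agent.H3.KLKum (LocInt LocDvd)
open Fermat.Agent.H91 (HasGoodBasisAt)

section

variable (A : Type) [CommRing A] [IsDomain A] [IsDiscreteValuationRing A]
  (E₀ E : Type) [Field E₀] [Field E] [Algebra A E₀] [Algebra A E] [Algebra E₀ E]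
  [IsScalarTower A E₀ E] [CharZero E₀]

/-- **GB tower step, root form.** -/
theorem rootGoodBasis (_hinj : Function.Injective (algebraMap A E₀))
    (ϖ : A) (hϖ : Irreducible ϖ) (x : E₀) (hx : Transcendental A x)
    (v : E) (hadj : Algebra.adjoin E₀ ({v} : Set E) = ⊤)
    (Q : E₀[X]) (hQ : Q.Monic) (hQc : ∀ i, Q.coeff i ∈ gaussClosure A E₀ ϖ x)
    (hQv : aeval v Q = 0) (hQ0 : aeval v (derivative Q) ≠ 0)
    (hQder : (aeval v (derivative Q))⁻¹ ∈ gaussClosure A E ϖ (algebraMap E₀ E x))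
    (hgb : GoodBasis A E₀ ϖ x) : GoodBasis A E ϖ (algebraMap E₀ E x) := by
  have hx' : Transcendental A (algebraMap E₀ E x) :=
    (transcendental_algebraMap_iff (algebraMap E₀ E).injective).mpr hx
  letI iR₀ : Algebra A[X] E₀ := polyAlgebra A E₀ x
  letI iR : Algebra A[X] E := polyAlgebra A E (algebraMap E₀ E x)
  have hc₀ : IsChart A A[X] x ϖ (C ϖ) := isChart_poly x hx ϖ
  have hc : IsChart A A[X] (algebraMap E₀ E x) ϖ (C ϖ) := isChart_poly _ hx' ϖ
  haveI : FaithfulSMul A[X] E₀ := (faithfulSMul_iff_algebraMap_injective _ _).mpr hc₀.injective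
  haveI : FaithfulSMul A[X] E := (faithfulSMul_iff_algebraMap_injective _ _).mpr hc.injective
  letI iK₀ : Algebra (FractionRing A[X]) E₀ := FractionRing.liftAlgebra A[X] E₀
  letI iK : Algebra (FractionRing A[X]) E := FractionRing.liftAlgebra A[X] E
  haveI : IsScalarTower A[X] (FractionRing A[X]) E₀ :=
    FractionRing.isScalarTower_liftAlgebra A[X] E₀
  haveI : IsScalarTower A[X] (FractionRing A[X]) E :=
    FractionRing.isScalarTower_liftAlgebra A[X] E
  haveI : IsScalarTower A[X] E₀ E :=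
    IsScalarTower.of_algebraMap_eq (fun p => aeval_algebraMap_apply E x p)
  haveI : IsScalarTower (FractionRing A[X]) E₀ E := by
    refine IsScalarTower.of_algebraMap_eq' ?_
    refine IsLocalization.ringHom_ext (nonZeroDivisors A[X]) ?_
    ext p
    · simp only [RingHom.comp_apply]
      rw [← IsScalarTower.algebraMap_apply A[X] (FractionRing A[X]) E,
        ← IsScalarTower.algebraMap_apply A[X] (FractionRing A[X]) E₀,
        ← IsScalarTower.algebraMap_apply A[X] E₀ E]
    · simp only [RingHom.comp_apply]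
      rw [← IsScalarTower.algebraMap_apply A[X] (FractionRing A[X]) E,
        ← IsScalarTower.algebraMap_apply A[X] (FractionRing A[X]) E₀,
        ← IsScalarTower.algebraMap_apply A[X] E₀ E]
  haveI : FiniteDimensional (FractionRing A[X]) E₀ :=
    hc₀.finiteDimensional_of_goodBasis _ hgb
  have hvint : IsIntegral E₀ v := ⟨Q, hQ, by rw [← aeval_def]; exact hQv⟩
  let pb : PowerBasis E₀ E := PowerBasis.ofAdjoinEqTop hvint hadj
  have hpbgen : pb.gen = v := PowerBasis.ofAdjoinEqTop_gen hvint hadj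
  haveI : FiniteDimensional E₀ E := pb.finite
  haveI : FiniteDimensional (FractionRing A[X]) E := FiniteDimensional.trans _ E₀ E
  have hprime : Prime (C ϖ : A[X]) := Polynomial.prime_C_iff.mpr hϖ.prime
  have h0 : HasGoodBasisAt A[X] (FractionRing A[X]) E₀ (Ideal.span {C ϖ}) :=
    hc₀.hasGoodBasisAt_of_goodBasis hgb
  have h1 : HasGoodBasisAt A[X] (FractionRing A[X]) E (Ideal.span {C ϖ}) :=
    root_hasGoodBasisAt (K := FractionRing A[X]) hprime pb hQ
      (fun i => hc₀.mem_gaussClosure_iff.mp (hQc i))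
      (by rw [hpbgen]; exact hQv) (by rw [hpbgen]; exact hQ0)
      (by rw [hpbgen]; exact hc.mem_gaussClosure_iff.mp hQder) h0
  exact hc.goodBasis_of_hasGoodBasisAt h1

/-- **GB tower step, split form.** -/
theorem splitGoodBasis (_hinj : Function.Injective (algebraMap A E₀))
    (ϖ : A) (hϖ : Irreducible ϖ) (x : E₀) (hx : Transcendental A x)
    {ι : Type*} [DecidableEq ι] (I : Finset ι) (v : ι → E) (hvinj : Set.InjOn v I)
    (Q : E₀[X]) (hQ : Q.Monic) (hQc : ∀ i, Q.coeff i ∈ gaussClosure A E₀ ϖ x)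
    (hsplit : Q.map (algebraMap E₀ E) = ∏ i ∈ I, (X - C (v i)))
    (i₀ : ι) (hi₀ : i₀ ∈ I) (hadj : Algebra.adjoin E₀ ({v i₀} : Set E) = ⊤)
    (d : E₀) (hd : algebraMap E₀ E d = ∏ i ∈ I, ∏ j ∈ I.erase i, (v i - v j))
    (hdinv : d⁻¹ ∈ gaussClosure A E₀ ϖ x)
    (hgb : GoodBasis A E₀ ϖ x) : GoodBasis A E ϖ (algebraMap E₀ E x) := by
  have hx' : Transcendental A (algebraMap E₀ E x) :=
    (transcendental_algebraMap_iff (algebraMap E₀ E).injective).mpr hx
  letI iR₀ : Algebra A[X] E₀ := polyAlgebra A E₀ x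
  letI iR : Algebra A[X] E := polyAlgebra A E (algebraMap E₀ E x)
  have hc₀ : IsChart A A[X] x ϖ (C ϖ) := isChart_poly x hx ϖ
  have hc : IsChart A A[X] (algebraMap E₀ E x) ϖ (C ϖ) := isChart_poly _ hx' ϖ
  haveI : FaithfulSMul A[X] E₀ := (faithfulSMul_iff_algebraMap_injective _ _).mpr hc₀.injective
  haveI : FaithfulSMul A[X] E := (faithfulSMul_iff_algebraMap_injective _ _).mpr hc.injective
  letI iK₀ : Algebra (FractionRing A[X]) E₀ := FractionRing.liftAlgebra A[X] E₀
  letI iK : Algebra (FractionRing A[X]) E := FractionRing.liftAlgebra A[X] E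
  haveI : IsScalarTower A[X] (FractionRing A[X]) E₀ :=
    FractionRing.isScalarTower_liftAlgebra A[X] E₀
  haveI : IsScalarTower A[X] (FractionRing A[X]) E :=
    FractionRing.isScalarTower_liftAlgebra A[X] E
  haveI : IsScalarTower A[X] E₀ E :=
    IsScalarTower.of_algebraMap_eq (fun p => aeval_algebraMap_apply E x p)
  haveI : IsScalarTower (FractionRing A[X]) E₀ E := by
    refine IsScalarTower.of_algebraMap_eq' ?_
    refine IsLocalization.ringHom_ext (nonZeroDivisors A[X]) ?_
    ext p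
    · simp only [RingHom.comp_apply]
      rw [← IsScalarTower.algebraMap_apply A[X] (FractionRing A[X]) E,
        ← IsScalarTower.algebraMap_apply A[X] (FractionRing A[X]) E₀,
        ← IsScalarTower.algebraMap_apply A[X] E₀ E]
    · simp only [RingHom.comp_apply]
      rw [← IsScalarTower.algebraMap_apply A[X] (FractionRing A[X]) E,
        ← IsScalarTower.algebraMap_apply A[X] (FractionRing A[X]) E₀,
        ← IsScalarTower.algebraMap_apply A[X] E₀ E]
  haveI : FiniteDimensional (FractionRing A[X]) E₀ :=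
    hc₀.finiteDimensional_of_goodBasis _ hgb
  have hroot : aeval (v i₀) Q = 0 := by
    rw [← eval_map_algebraMap, hsplit, eval_prod]
    exact Finset.prod_eq_zero hi₀ (by rw [eval_sub, eval_X, eval_C, sub_self])
  have hvint : IsIntegral E₀ (v i₀) := ⟨Q, hQ, by rw [← aeval_def]; exact hroot⟩
  let pb : PowerBasis E₀ E := PowerBasis.ofAdjoinEqTop hvint hadj
  have hpbgen : pb.gen = v i₀ := PowerBasis.ofAdjoinEqTop_gen hvint hadj
  haveI : FiniteDimensional E₀ E := pb.finite
  haveI : FiniteDimensional (FractionRing A[X]) E := FiniteDimensional.trans _ E₀ E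
  have hprime : Prime (C ϖ : A[X]) := Polynomial.prime_C_iff.mpr hϖ.prime
  have h0 : HasGoodBasisAt A[X] (FractionRing A[X]) E₀ (Ideal.span {C ϖ}) :=
    hc₀.hasGoodBasisAt_of_goodBasis hgb
  have h1 : HasGoodBasisAt A[X] (FractionRing A[X]) E (Ideal.span {C ϖ}) :=
    split_hasGoodBasisAt (K := FractionRing A[X]) hprime pb I v hvinj hQ
      (fun i => hc₀.mem_gaussClosure_iff.mp (hQc i)) hsplit hi₀ hpbgen d hd
      (hc₀.mem_gaussClosure_iff.mp hdinv) h0
  exact hc.goodBasis_of_hasGoodBasisAt h1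

end

end Fermat.Agent.H74.ES1KL
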