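import Fermat.Agent.H74.ES1KL.GB1Q
import Fermat.Agent.H74.ES1KL.MultiGBChart
import Fermat.Agent.H91.ES1KL.BasicGen
import Fermat.Agent.H27.KLGB.Model
import Fermat.Agent.H48.KL.QExpFinal

/-!
# P-ES1 / ES1-KL, GB1 (helper74): the good basis of the function field of `X₁(M)`

`modelGoodBasis_F1 : VFunStatement → 3 ≤ M → ℓ prime → ℓ ∤ M →
  Fermat.Agent.H91.ES1KL.ModelGoodBasisGen (F1 M) ℓ jq`.

`E₀ = K₁ · F₀(M) ⊆ E = K₁ · F₁(M) = E₀[v_g : g ∈ (ℤ/M)ˣ/±1]`.  The polynomial
`Q = ∏_g (X - v_g)` has coefficients in `E₀` (SYM1, analytic), with integral `q`-expansions, and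
its discriminant `d` has leading coefficient `± 1` (`GenSepStatement`).  By the `q`-expansion
principle for `X₀(M)` (helper48 `modelQExp_j`) the coefficients of `Q` and `1 / d` lie in the Gauss
closure of `E₀`; the good basis of `E₀` (helper27 `modelGoodBasis_j`) is propagated to `E` by
`multiSplitGoodBasis`.
-/

set_option autoImplicit false
set_option linter.style.haveILetI false
set_option linter.unusedSectionVars false

noncomputable section

open Polynomial ModularCurve

namespace Fermat.Agent.H74.ES1KL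

open Fermat.Agent.H29.ES1 Fermat.Agent.H91.ES1KL Fermat.Agent.H22.KL

section Generic

variable (K₁ : Type) [Field K₁] [Algebra ℚ K₁]

theorem laurentBaseChange_mono' {F₀ F₁ : IntermediateField ℚ (LaurentSeries ℚ)} (h : F₀ ≤ F₁) :
    laurentBaseChange K₁ F₀ ≤ laurentBaseChange K₁ F₁ := by
  rw [laurentBaseChange, IntermediateField.adjoin_le_iff]
  rintro _ ⟨y, hy, rfl⟩
  exact coeffEmb_mem_laurentBaseChange K₁ (h hy)

/-- Integral rational Laurent series have `A₀`-integral coefficients over `K₁`. -/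
theorem coeffEmb_coeff_mem_range (A₀ : Type) [CommRing A₀] [Algebra A₀ K₁]
    {y : LaurentSeries ℚ} (hy : y ∈ intSeries) (n : ℤ) :
    (coeffEmb K₁ y).coeff n ∈ (algebraMap A₀ K₁).range := by
  obtain ⟨w, rfl⟩ := hy
  refine ⟨((w.coeff n : ℤ) : A₀), ?_⟩
  rw [coeffEmb_coeff, coeffMap_coeff]
  simp

theorem one_coeff_mem_range (A₀ : Type) [CommRing A₀] [Algebra A₀ K₁] (n : ℤ) :
    (1 : LaurentSeries K₁).coeff n ∈ (algebraMap A₀ K₁).range := by
  rw [HahnSeries.coeff_one]
  split_ifs
  · exact ⟨1, map_one _⟩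
  · exact ⟨0, map_zero _⟩

end Generic

section Sub

variable {K E : Type*} [Field K] [Field E] [Algebra K E] (L : IntermediateField K E)
  (S : Subfield ↥L)

theorem coe_algebraMap_sub (k : K) : ((algebraMap K ↥L k : ↥L) : E) = algebraMap K E k := rfl

theorem mk_mem_of_eq {a b : E} (e : a = b) (hb : b ∈ L) (h : (⟨b, hb⟩ : ↥L) ∈ S)
    (ha : a ∈ L) : (⟨a, ha⟩ : ↥L) ∈ S := by
  subst e
  exact h

theorem mk_add_mem {x y : E} (hx : x ∈ L) (hy : y ∈ L) (h2 : (⟨x, hx⟩ : ↥L) ∈ S)
    (h4 : (⟨y, hy⟩ : ↥L) ∈ S) : (⟨x + y, add_mem hx hy⟩ : ↥L) ∈ S := by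
  have h6 : (⟨x + y, add_mem hx hy⟩ : ↥L) = ⟨x, hx⟩ + ⟨y, hy⟩ :=
    Subtype.ext (by rw [IntermediateField.coe_add])
  rw [h6]
  exact S.add_mem h2 h4

theorem mk_mul_mem {x y : E} (hx : x ∈ L) (hy : y ∈ L) (h2 : (⟨x, hx⟩ : ↥L) ∈ S)
    (h4 : (⟨y, hy⟩ : ↥L) ∈ S) : (⟨x * y, mul_mem hx hy⟩ : ↥L) ∈ S := by
  have h6 : (⟨x * y, mul_mem hx hy⟩ : ↥L) = ⟨x, hx⟩ * ⟨y, hy⟩ :=
    Subtype.ext (by rw [IntermediateField.coe_mul])
  rw [h6]
  exact S.mul_mem h2 h4

theorem mk_inv_mem {x : E} (hx : x ∈ L) (h2 : (⟨x, hx⟩ : ↥L) ∈ S) :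
    (⟨x⁻¹, inv_mem hx⟩ : ↥L) ∈ S := by
  have h6 : (⟨x⁻¹, inv_mem hx⟩ : ↥L) = (⟨x, hx⟩ : ↥L)⁻¹ :=
    Subtype.ext (by rw [IntermediateField.coe_inv])
  rw [h6]
  exact S.inv_mem h2

end Sub


section Core

variable (M : ℕ) [NeZero M] (K₁ : Type) [Field K₁] [Algebra ℚ K₁]

/-- The inclusion `K₁ · F₀(M) ⊆ K₁ · F₁(M)`. -/
def inclFull : ModelFieldGen K₁ (modularFunctionFieldFull M) →+* ModelFieldGen K₁ (F1 M) where
  toFun y := ⟨y.1, laurentBaseChange_mono' K₁ (full_le_F1 M) y.2⟩
  map_one' := rfl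
  map_mul' _ _ := rfl
  map_zero' := rfl
  map_add' _ _ := rfl

theorem inclFull_mk (a : LaurentSeries K₁)
    (h : a ∈ laurentBaseChange K₁ (modularFunctionFieldFull M)) :
    inclFull M K₁ ⟨a, h⟩ = ⟨a, laurentBaseChange_mono' K₁ (full_le_F1 M) h⟩ := rfl

theorem coe_inclFull (y : ModelFieldGen K₁ (modularFunctionFieldFull M)) :
    ((inclFull M K₁ y : ModelFieldGen K₁ (F1 M)) : LaurentSeries K₁) = (y : LaurentSeries K₁) := by
  rcases y with ⟨y, hy⟩
  rfl

/-- The generators `v_g` as elements of `K₁ · F₁(M)`. -/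
def vqE (g : UnitsModSign M) : ModelFieldGen K₁ (F1 M) :=
  ⟨coeffEmb K₁ (vq M g), coeffEmb_mem_laurentBaseChange K₁ (vq_mem_F1 M g)⟩

theorem coe_vqE (g : UnitsModSign M) :
    ((vqE M K₁ g : ModelFieldGen K₁ (F1 M)) : LaurentSeries K₁) = coeffEmb K₁ (vq M g) := rfl

/-- The field `K₁ · F₁(M)` is generated by `K₁ · F₀(M)` and the `v_g`. -/
theorem mem_subfield_of_gens (S : Subfield (ModelFieldGen K₁ (F1 M)))
    (h0 : ∀ y : ModelFieldGen K₁ (modularFunctionFieldFull M), inclFull M K₁ y ∈ S)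
    (h1 : ∀ g : UnitsModSign M, vqE M K₁ g ∈ S) (y : ModelFieldGen K₁ (F1 M)) : y ∈ S := by
  -- rational elements
  have key : ∀ f : LaurentSeries ℚ, f ∈ F1 M →
      ∀ h : coeffEmb K₁ f ∈ laurentBaseChange K₁ (F1 M),
        (⟨coeffEmb K₁ f, h⟩ : ModelFieldGen K₁ (F1 M)) ∈ S := by
    intro f hf
    rw [F1] at hf
    induction hf using IntermediateField.adjoin_induction with
    | mem x hx =>
      intro h
      rcases hx with hx | hx
      · have hx' : x ∈ modularFunctionFieldFull M :=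
          IntermediateField.subset_adjoin ℚ _ hx
        have := h0 ⟨coeffEmb K₁ x, coeffEmb_mem_laurentBaseChange K₁ hx'⟩
        rw [inclFull_mk] at this
        exact this
      · obtain ⟨a, rfl⟩ := hx
        exact h1 (QuotientGroup.mk a : UnitsModSign M)
    | algebraMap r =>
      intro h
      have hr0 : algebraMap ℚ (LaurentSeries ℚ) r ∈ modularFunctionFieldFull M :=
        (modularFunctionFieldFull M).algebraMap_mem r
      have := h0 ⟨coeffEmb K₁ (algebraMap ℚ (LaurentSeries ℚ) r),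
        coeffEmb_mem_laurentBaseChange K₁ hr0⟩
      rw [inclFull_mk] at this
      exact this
    | add x y hx' hy' hx hy =>
      intro h
      have hxm : coeffEmb K₁ x ∈ laurentBaseChange K₁ (F1 M) :=
        coeffEmb_mem_laurentBaseChange K₁ (by rw [F1]; exact hx')
      have hym : coeffEmb K₁ y ∈ laurentBaseChange K₁ (F1 M) :=
        coeffEmb_mem_laurentBaseChange K₁ (by rw [F1]; exact hy')
      exact mk_mem_of_eq _ S (map_add (coeffEmb K₁) x y) (add_mem hxm hym)
        (mk_add_mem _ S hxm hym (hx hxm) (hy hym)) h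
    | inv x hx' hx =>
      intro h
      have hxm : coeffEmb K₁ x ∈ laurentBaseChange K₁ (F1 M) :=
        coeffEmb_mem_laurentBaseChange K₁ (by rw [F1]; exact hx')
      exact mk_mem_of_eq _ S (map_inv₀ (coeffEmb K₁) x) (inv_mem hxm)
        (mk_inv_mem _ S hxm (hx hxm)) h
    | mul x y hx' hy' hx hy =>
      intro h
      have hxm : coeffEmb K₁ x ∈ laurentBaseChange K₁ (F1 M) :=
        coeffEmb_mem_laurentBaseChange K₁ (by rw [F1]; exact hx')
      have hym : coeffEmb K₁ y ∈ laurentBaseChange K₁ (F1 M) :=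
        coeffEmb_mem_laurentBaseChange K₁ (by rw [F1]; exact hy')
      exact mk_mem_of_eq _ S (map_mul (coeffEmb K₁) x y) (mul_mem hxm hym)
        (mk_mul_mem _ S hxm hym (hx hxm) (hy hym)) h
  -- all elements
  have key2 : ∀ s : LaurentSeries K₁, s ∈ laurentBaseChange K₁ (F1 M) →
      ∀ h : s ∈ laurentBaseChange K₁ (F1 M), (⟨s, h⟩ : ModelFieldGen K₁ (F1 M)) ∈ S := by
    intro s hs
    rw [laurentBaseChange] at hs
    induction hs using IntermediateField.adjoin_induction with
    | mem x hx =>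
      intro h
      obtain ⟨f, hf, rfl⟩ := hx
      exact key f hf h
    | algebraMap r =>
      intro h
      have hr0 : algebraMap K₁ (LaurentSeries K₁) r
          ∈ laurentBaseChange K₁ (modularFunctionFieldFull M) :=
        (laurentBaseChange K₁ (modularFunctionFieldFull M)).algebraMap_mem r
      have := h0 ⟨algebraMap K₁ (LaurentSeries K₁) r, hr0⟩
      rw [inclFull_mk] at this
      exact this
    | add x y hx' hy' hx hy =>
      intro h
      have hxm : x ∈ laurentBaseChange K₁ (F1 M) := by rw [laurentBaseChange]; exact hx'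
      have hym : y ∈ laurentBaseChange K₁ (F1 M) := by rw [laurentBaseChange]; exact hy'
      exact mk_add_mem _ S hxm hym (hx hxm) (hy hym)
    | inv x hx' hx =>
      intro h
      have hxm : x ∈ laurentBaseChange K₁ (F1 M) := by rw [laurentBaseChange]; exact hx'
      exact mk_inv_mem _ S hxm (hx hxm)
    | mul x y hx' hy' hx hy =>
      intro h
      have hxm : x ∈ laurentBaseChange K₁ (F1 M) := by rw [laurentBaseChange]; exact hx'
      have hym : y ∈ laurentBaseChange K₁ (F1 M) := by rw [laurentBaseChange]; exact hy'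
      exact mk_mul_mem _ S hxm hym (hx hxm) (hy hym)
  rcases y with ⟨y, hy⟩
  exact key2 y hy hy

/-- The coefficients of `∏ (X - v_g)` over `K₁` come from the rational ones. -/
theorem coe_coeff_split [Fintype (UnitsModSign M)] (k : ℕ) :
    (((∏ g : UnitsModSign M, (X - C (vqE M K₁ g)) : (ModelFieldGen K₁ (F1 M))[X]).coeff k :
        ModelFieldGen K₁ (F1 M)) : LaurentSeries K₁)
      = coeffEmb K₁ ((∏ g : UnitsModSign M, (X - C (vq M g)) : (LaurentSeries ℚ)[X]).coeff k) := by
  have h1 : (∏ g : UnitsModSign M, (X - C (vqE M K₁ g)) : (ModelFieldGen K₁ (F1 M))[X]).map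
        ((laurentBaseChange K₁ (F1 M)).val : ModelFieldGen K₁ (F1 M) →+* LaurentSeries K₁)
      = (∏ g : UnitsModSign M, (X - C (vq M g)) : (LaurentSeries ℚ)[X]).map (coeffEmb K₁) := by
    rw [Polynomial.map_prod, Polynomial.map_prod]
    refine Finset.prod_congr rfl fun g _ => ?_
    rw [Polynomial.map_sub, Polynomial.map_X, Polynomial.map_C, Polynomial.map_sub,
      Polynomial.map_X, Polynomial.map_C]
    rfl
  have h2 := congrArg (fun p => p.coeff k) h1
  simp only [Polynomial.coeff_map] at h2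
  exact h2

/-- The discriminant over `K₁` comes from the rational one. -/
theorem coe_disc [Fintype (UnitsModSign M)] [DecidableEq (UnitsModSign M)] :
    (((∏ g : UnitsModSign M, ∏ g' ∈ (Finset.univ : Finset (UnitsModSign M)).erase g,
        (vqE M K₁ g - vqE M K₁ g') : ModelFieldGen K₁ (F1 M)) :
        ModelFieldGen K₁ (F1 M)) : LaurentSeries K₁)
      = coeffEmb K₁ (∏ g : UnitsModSign M,
          ∏ g' ∈ (Finset.univ : Finset (UnitsModSign M)).erase g, (vq M g - vq M g')) := by
  have h1 : ∀ z : ModelFieldGen K₁ (F1 M), (z : LaurentSeries K₁)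
      = ((laurentBaseChange K₁ (F1 M)).val : ModelFieldGen K₁ (F1 M) →+* LaurentSeries K₁) z :=
    fun _ => rfl
  rw [h1, map_prod, map_prod]
  refine Finset.prod_congr rfl fun g _ => ?_
  rw [map_prod, map_prod]
  refine Finset.prod_congr rfl fun g' _ => ?_
  rw [map_sub, map_sub]
  rfl

end Core

section Main

variable (M : ℕ) [NeZero M]

/-- **GB1.**  The good basis of the function field of `X₁(M)` over `K₁` in the chart `j`, at every
prime `ℓ ∤ M`. -/
theorem modelGoodBasis_F1 (hV : VFunStatement) (hM : 3 ≤ M) (ℓ : ℕ) (hℓ : ℓ.Prime)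
    (hℓM : ¬ ℓ ∣ M) : ModelGoodBasisGen (F1 M) ℓ jq := by
  classical
  intro K₁ _ _ _ A₀ _ _ _ _ _ iA iT hu ϖ hϖ x hx
  letI iFin : Fintype (UnitsModSign M) := Fintype.ofFinite _
  have hS : GenSepStatement := Fermat.Agent.H16.genSepStatement
  -- the base field and the tower
  letI algA₀ : Algebra A₀ (ModelFieldGen K₁ (modularFunctionFieldFull M)) :=
    ((algebraMap K₁ (ModelFieldGen K₁ (modularFunctionFieldFull M))).comp
      (algebraMap A₀ K₁)).toAlgebra
  haveI tow₀ : IsScalarTower A₀ K₁ (ModelFieldGen K₁ (modularFunctionFieldFull M)) :=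
    IsScalarTower.of_algebraMap_eq (fun _ => rfl)
  letI algE : Algebra (ModelFieldGen K₁ (modularFunctionFieldFull M))
      (ModelFieldGen K₁ (F1 M)) := (inclFull M K₁).toAlgebra
  have halg : ∀ y : ModelFieldGen K₁ (modularFunctionFieldFull M),
      algebraMap (ModelFieldGen K₁ (modularFunctionFieldFull M)) (ModelFieldGen K₁ (F1 M)) y
        = inclFull M K₁ y := fun _ => rfl
  haveI towE : IsScalarTower A₀ (ModelFieldGen K₁ (modularFunctionFieldFull M))
      (ModelFieldGen K₁ (F1 M)) := IsScalarTower.of_algebraMap_eq (fun a => by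
    apply Subtype.ext
    rw [IsScalarTower.algebraMap_apply A₀ K₁ (ModelFieldGen K₁ (F1 M)), halg, coe_inclFull,
      IsScalarTower.algebraMap_apply A₀ K₁ (ModelFieldGen K₁ (modularFunctionFieldFull M)),
      coe_algebraMap_sub, coe_algebraMap_sub])
  haveI hc0 : CharZero K₁ := algebraRat.charZero K₁
  haveI hc1 : CharZero (ModelFieldGen K₁ (modularFunctionFieldFull M)) :=
    charZero_of_injective_algebraMap
      (algebraMap K₁ (ModelFieldGen K₁ (modularFunctionFieldFull M))).injective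
  have hinj : Function.Injective
      (algebraMap A₀ (ModelFieldGen K₁ (modularFunctionFieldFull M))) := by
    rw [IsScalarTower.algebraMap_eq A₀ K₁ (ModelFieldGen K₁ (modularFunctionFieldFull M))]
    exact (algebraMap K₁ (ModelFieldGen K₁ (modularFunctionFieldFull M))).injective.comp
      (IsFractionRing.injective A₀ K₁)
  -- the coordinate
  set x₀ : ModelFieldGen K₁ (modularFunctionFieldFull M) :=
    ⟨coeffEmb K₁ jq, coeffEmb_mem_laurentBaseChange K₁
      (modularFunctionField_le_full M (jq_mem M))⟩ with hx₀def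
  have hx₀ : (x₀ : LaurentSeries K₁) = coeffEmb K₁ jq := rfl
  have hxx₀ : x = algebraMap (ModelFieldGen K₁ (modularFunctionFieldFull M))
      (ModelFieldGen K₁ (F1 M)) x₀ := by
    apply Subtype.ext
    rw [halg, coe_inclFull, hx, hx₀]
  have hx₀tr : Transcendental A₀ x₀ :=
    modelTranscendentalGen_jq (modularFunctionFieldFull M) K₁ A₀ x₀ hx₀
  -- the inputs for the base field
  have hGB₀ : GoodBasis A₀ (ModelFieldGen K₁ (modularFunctionFieldFull M)) ϖ x₀ :=
    (modelGoodBasis_iff M ℓ jq).mp (Fermat.Agent.H27.KLGB.modelGoodBasis_j M ℓ hℓ hℓM)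
      K₁ A₀ hu ϖ hϖ x₀ hx₀
  have hQE := (modelQExp_iff M ℓ jq).mp (Fermat.Agent.H48.QExp.modelQExp_j M ℓ hℓ hℓM)
      K₁ A₀ hu ϖ hϖ x₀ hx₀
  have hone : ∀ n : ℤ, ((1 : ModelFieldGen K₁ (modularFunctionFieldFull M)) :
      LaurentSeries K₁).coeff n ∈ (algebraMap A₀ K₁).range := fun n => by
    rw [IntermediateField.coe_one]
    exact one_coeff_mem_range K₁ A₀ n
  -- the polynomial
  set T : (ModelFieldGen K₁ (F1 M))[X] := ∏ g : UnitsModSign M, (X - C (vqE M K₁ g)) with hT
  have hTm : T.Monic := monic_prod_of_monic _ _ (fun g _ => monic_X_sub_C _)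
  have hcoef : ∀ k : ℕ, T.coeff k
      = algebraMap (ModelFieldGen K₁ (modularFunctionFieldFull M)) (ModelFieldGen K₁ (F1 M))
        ⟨coeffEmb K₁ ((∏ g : UnitsModSign M, (X - C (vq M g)) : (LaurentSeries ℚ)[X]).coeff k),
          coeffEmb_mem_laurentBaseChange K₁ (coeff_split_mem_full M hV hM k)⟩ := by
    intro k
    apply Subtype.ext
    rw [halg, coe_inclFull, hT, coe_coeff_split]
  have hlift : T ∈ Polynomial.lifts
      (algebraMap (ModelFieldGen K₁ (modularFunctionFieldFull M)) (ModelFieldGen K₁ (F1 M))) := by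
    rw [Polynomial.lifts_iff_coeff_lifts]
    intro k
    exact ⟨_, (hcoef k).symm⟩
  obtain ⟨Q, hQmap, -, hQm⟩ := Polynomial.lifts_and_natDegree_eq_and_monic hlift hTm
  have hQcoeff : ∀ k : ℕ, Q.coeff k
      = ⟨coeffEmb K₁ ((∏ g : UnitsModSign M, (X - C (vq M g)) : (LaurentSeries ℚ)[X]).coeff k),
          coeffEmb_mem_laurentBaseChange K₁ (coeff_split_mem_full M hV hM k)⟩ := by
    intro k
    apply (algebraMap (ModelFieldGen K₁ (modularFunctionFieldFull M))
      (ModelFieldGen K₁ (F1 M))).injective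
    rw [← Polynomial.coeff_map, hQmap, hcoef]
  have hQc : ∀ k : ℕ, Q.coeff k
      ∈ gaussClosure A₀ (ModelFieldGen K₁ (modularFunctionFieldFull M)) ϖ x₀ := by
    intro k
    have h1 := hQE (Q.coeff k) 1 (fun n => by
        rw [hQcoeff]
        exact coeffEmb_coeff_mem_range K₁ A₀ (coeff_split_mem_int M k) n) hone
      ⟨0, 1, isUnit_one, by rw [map_one, IntermediateField.coe_one, HahnSeries.coeff_one,
        if_pos rfl]⟩
    rwa [div_one] at h1
  -- the discriminant
  set dQ : LaurentSeries ℚ := ∏ g : UnitsModSign M,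
    ∏ g' ∈ (Finset.univ : Finset (UnitsModSign M)).erase g, (vq M g - vq M g') with hdQ
  set d : ModelFieldGen K₁ (modularFunctionFieldFull M) :=
    ⟨coeffEmb K₁ dQ, coeffEmb_mem_laurentBaseChange K₁ (disc_mem_full M hV hM)⟩ with hddef
  have hd : algebraMap (ModelFieldGen K₁ (modularFunctionFieldFull M))
      (ModelFieldGen K₁ (F1 M)) d
      = ∏ g : UnitsModSign M, ∏ g' ∈ (Finset.univ : Finset (UnitsModSign M)).erase g,
        (vqE M K₁ g - vqE M K₁ g') := by
    apply Subtype.ext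
    rw [halg, coe_inclFull, coe_disc]
  have hdinv : d⁻¹ ∈ gaussClosure A₀ (ModelFieldGen K₁ (modularFunctionFieldFull M)) ϖ x₀ := by
    obtain ⟨n, hn⟩ := exists_coeff_disc M hS hM
    have hunit : ∃ (n : ℤ) (c : A₀), IsUnit c ∧
        algebraMap A₀ K₁ c = (d : LaurentSeries K₁).coeff n := by
      rcases hn with hn | hn
      · refine ⟨n, 1, isUnit_one, ?_⟩
        show _ = (coeffEmb K₁ dQ).coeff n
        rw [coeffEmb_coeff, hn, map_one, map_one]
      · refine ⟨n, -1, isUnit_one.neg, ?_⟩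
        show _ = (coeffEmb K₁ dQ).coeff n
        rw [coeffEmb_coeff, hn, map_neg, map_neg, map_one, map_one]
    have h1 := hQE 1 d hone
      (fun n => coeffEmb_coeff_mem_range K₁ A₀ (disc_mem_int M) n) hunit
    rwa [one_div] at h1
  -- generation
  have hadj : Algebra.adjoin (ModelFieldGen K₁ (modularFunctionFieldFull M))
      ((vqE M K₁) '' ((Finset.univ : Finset (UnitsModSign M)) : Set (UnitsModSign M))) = ⊤ := by
    have hroot : ∀ g : UnitsModSign M, IsIntegral (ModelFieldGen K₁ (modularFunctionFieldFull M))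
        (vqE M K₁ g) := by
      intro g
      refine ⟨Q, hQm, ?_⟩
      rw [← Polynomial.eval_map, hQmap, hT, Polynomial.eval_prod]
      exact Finset.prod_eq_zero (Finset.mem_univ g)
        (by rw [Polynomial.eval_sub, Polynomial.eval_X, Polynomial.eval_C, sub_self])
    have hsub : (IntermediateField.adjoin (ModelFieldGen K₁ (modularFunctionFieldFull M))
        ((vqE M K₁) '' ((Finset.univ : Finset (UnitsModSign M)) : Set (UnitsModSign M)))).toSubalgebra
        = Algebra.adjoin (ModelFieldGen K₁ (modularFunctionFieldFull M))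
          ((vqE M K₁) '' ((Finset.univ : Finset (UnitsModSign M)) : Set (UnitsModSign M))) := by
      refine IntermediateField.adjoin_toSubalgebra_of_isAlgebraic ?_
      rintro _ ⟨g, -, rfl⟩
      exact (hroot g).isAlgebraic
    rw [eq_top_iff]
    intro y _
    rw [← hsub]
    refine mem_subfield_of_gens M K₁
      (IntermediateField.adjoin (ModelFieldGen K₁ (modularFunctionFieldFull M))
        ((vqE M K₁) '' ((Finset.univ : Finset (UnitsModSign M)) :
          Set (UnitsModSign M)))).toSubfield ?_ ?_ y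
    · intro z
      rw [← halg]
      exact IntermediateField.algebraMap_mem _ z
    · intro g
      exact IntermediateField.subset_adjoin _ _ ⟨g, Finset.mem_coe.mpr (Finset.mem_univ g), rfl⟩
  -- injectivity of the generators
  have hvinj : Set.InjOn (vqE M K₁)
      ((Finset.univ : Finset (UnitsModSign M)) : Set (UnitsModSign M)) := by
    intro g _ g' _ h
    apply vq_injective M hS hM
    apply (coeffEmb K₁).injective
    exact congrArg Subtype.val h
  rw [hxx₀]
  exact multiSplitGoodBasis A₀ (ModelFieldGen K₁ (modularFunctionFieldFull M))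
    (ModelFieldGen K₁ (F1 M)) hinj ϖ hϖ x₀ hx₀tr Finset.univ (vqE M K₁) hvinj Q hQm hQc
    (by rw [hQmap]) hadj d hd hdinv hGB₀

end Main

end Fermat.Agent.H74.ES1KL
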