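import Fermat.Agent.H74.ES1KL.SimpleGB
import Fermat.Agent.H54.KL.Dict

/-!
# P-ES1 / ES1-KL, GB1 tower step in the chart language (helper74)

`simpleGoodBasis : SimpleGoodBasisStatement` : in the setting of
`Fermat.Agent.H22.KL` (`A` a discrete valuation ring with uniformiser `ϖ`, `x ∈ E₀`
transcendental over `A`), a good basis of `E₀` in the chart `x` gives a good basis of a simple
extension `E = E₀(v)` as soon as `v` is integral over `A[x]` and the inverse different
`1 / P'(v)` lies in the Gauss closure of `E`.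

`simpleGoodBasis'` : the same with the hypothesis on the different replaced by:
there is `d ∈ E₀` with `1 / d` in the Gauss closure of `E₀` and `d / P'(v)` integral over `A[x]`
(e.g. `d = ± disc P`, the norm of `P'(v)`).

This is the twin of `KummerGoodBasisStatement` (`P = X^r - u`) for an arbitrary separable
simple extension; it is the abstract core of GB1 (`E₀ = K₁ F₀(M)`, `E = K₁ F₁(M)`, `v = v₁`,
`P = ∏_b (X - v_b)`).
-/

set_option autoImplicit false
set_option linter.style.haveILetI false
set_option linter.unusedSectionVars false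

noncomputable section

namespace Fermat.Agent.H74.ES1KL

open Polynomial
open Fermat.Agent.H22.KL
open Fermat.Agent.H54.KLDict
open Fermat.Agent.H3.KLKum (LocInt LocDvd)
open Fermat.Agent.H91 (HasGoodBasisAt)

/-- **GB tower step**: a good basis of `E₀` gives a good basis of `E = E₀(v)`, `v` integral
over `A[x]` with inverse different in the Gauss closure. -/
def SimpleGoodBasisStatement : Prop :=
  ∀ (A : Type) [CommRing A] [IsDomain A] [IsDiscreteValuationRing A]
    (E₀ E : Type) [Field E₀] [Field E] [Algebra A E₀] [Algebra A E] [Algebra E₀ E]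
    [IsScalarTower A E₀ E] [CharZero E₀],
    Function.Injective (algebraMap A E₀) →
    ∀ (ϖ : A), Irreducible ϖ → ∀ (x : E₀), Transcendental A x →
    ∀ (v : E), IsIntegral E₀ v → Algebra.adjoin E₀ ({v} : Set E) = ⊤ →
      v ∈ chartClosure A E (algebraMap E₀ E x) →
      (aeval v (derivative (minpoly E₀ v)))⁻¹ ∈ gaussClosure A E ϖ (algebraMap E₀ E x) →
      GoodBasis A E₀ ϖ x → GoodBasis A E ϖ (algebraMap E₀ E x)

/-- **GB tower step.** -/
theorem simpleGoodBasis : SimpleGoodBasisStatement := by
  intro A _ _ _ E₀ E _ _ _ _ _ _ _ hinj ϖ hϖ x hx v hvint hadj hvB hder hgb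
  have hx' : Transcendental A (algebraMap E₀ E x) :=
    (transcendental_algebraMap_iff (algebraMap E₀ E).injective).mpr hx
  letI iR₀ : Algebra A[X] E₀ := polyAlgebra A E₀ x
  letI iR : Algebra A[X] E := polyAlgebra A E (algebraMap E₀ E x)
  have hc₀ : IsChart A A[X] x ϖ (C ϖ) := isChart_poly x hx ϖ
  have hc : IsChart A A[X] (algebraMap E₀ E x) ϖ (C ϖ) := isChart_poly _ hx' ϖ
  haveI : FaithfulSMul A[X] E₀ := (faithfulSMul_iff_algebraMap_injective _ _).mpr hc₀.injective
  haveI : FaithfulSMul A[X] E := (faithfulSMul_iff_algebraMap_injective _ _).mpr hc.injective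
  letI iK₀ : Algebra (FractionRing A[X]) E₀ := FractionRing.liftAlgebra A[X] E₀
  letI iK : Algebra (FractionRing A[X]) E := FractionRing.liftAlgebra A[X] E
  haveI : IsScalarTower A[X] (FractionRing A[X]) E₀ :=
    FractionRing.isScalarTower_liftAlgebra A[X] E₀
  haveI : IsScalarTower A[X] (FractionRing A[X]) E :=
    FractionRing.isScalarTower_liftAlgebra A[X] E
  haveI : IsScalarTower A[X] E₀ E :=
    IsScalarTower.of_algebraMap_eq (fun p => aeval_algebraMap_apply E x p)
  haveI : IsScalarTower (FractionRing A[X]) E₀ E := by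
    refine IsScalarTower.of_algebraMap_eq' ?_
    refine IsLocalization.ringHom_ext (nonZeroDivisors A[X]) ?_
    ext p
    · simp only [RingHom.comp_apply]
      rw [← IsScalarTower.algebraMap_apply A[X] (FractionRing A[X]) E,
        ← IsScalarTower.algebraMap_apply A[X] (FractionRing A[X]) E₀,
        ← IsScalarTower.algebraMap_apply A[X] E₀ E]
    · simp only [RingHom.comp_apply]
      rw [← IsScalarTower.algebraMap_apply A[X] (FractionRing A[X]) E,
        ← IsScalarTower.algebraMap_apply A[X] (FractionRing A[X]) E₀,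
        ← IsScalarTower.algebraMap_apply A[X] E₀ E]
  haveI : FiniteDimensional (FractionRing A[X]) E₀ :=
    hc₀.finiteDimensional_of_goodBasis _ hgb
  let pb : PowerBasis E₀ E := PowerBasis.ofAdjoinEqTop hvint hadj
  have hpbgen : pb.gen = v := PowerBasis.ofAdjoinEqTop_gen hvint hadj
  haveI : FiniteDimensional E₀ E := pb.finite
  haveI : FiniteDimensional (FractionRing A[X]) E := FiniteDimensional.trans _ E₀ E
  haveI : Algebra.IsSeparable E₀ E := inferInstance
  have hprime : Prime (C ϖ : A[X]) := Polynomial.prime_C_iff.mpr hϖ.prime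
  have hvR : IsIntegral A[X] pb.gen := by
    rw [hpbgen]
    exact hc.mem_chartClosure_iff.mp hvB
  have hLder : LocInt (C ϖ : A[X]) (aeval pb.gen (derivative (minpoly E₀ pb.gen)))⁻¹ := by
    rw [hpbgen]
    exact hc.mem_gaussClosure_iff.mp hder
  have h0 : HasGoodBasisAt A[X] (FractionRing A[X]) E₀ (Ideal.span {C ϖ}) :=
    hc₀.hasGoodBasisAt_of_goodBasis hgb
  have h1 : HasGoodBasisAt A[X] (FractionRing A[X]) E (Ideal.span {C ϖ}) :=
    simple_hasGoodBasisAt (K := FractionRing A[X]) hprime pb hvR hLder h0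
  exact hc.goodBasis_of_hasGoodBasisAt h1

/-- The Gauss closure of `E₀` maps into the Gauss closure of `E`. -/
theorem algebraMap_mem_gaussClosure {A : Type} [CommRing A]
    {E₀ E : Type} [Field E₀] [Field E] [Algebra A E₀] [Algebra A E] [Algebra E₀ E]
    [IsScalarTower A E₀ E] {ϖ : A} {x : E₀} (hx : Transcendental A x) {y : E₀}
    (hy : y ∈ gaussClosure A E₀ ϖ x) :
    algebraMap E₀ E y ∈ gaussClosure A E ϖ (algebraMap E₀ E x) := by
  have hx' : Transcendental A (algebraMap E₀ E x) :=
    (transcendental_algebraMap_iff (algebraMap E₀ E).injective).mpr hx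
  letI iR₀ : Algebra A[X] E₀ := polyAlgebra A E₀ x
  letI iR : Algebra A[X] E := polyAlgebra A E (algebraMap E₀ E x)
  have hc₀ : IsChart A A[X] x ϖ (C ϖ) := isChart_poly x hx ϖ
  have hc : IsChart A A[X] (algebraMap E₀ E x) ϖ (C ϖ) := isChart_poly _ hx' ϖ
  haveI : IsScalarTower A[X] E₀ E :=
    IsScalarTower.of_algebraMap_eq (fun p => aeval_algebraMap_apply E x p)
  obtain ⟨s, hs, hsy⟩ := hc₀.mem_gaussClosure_iff.mp hy
  refine hc.mem_gaussClosure_iff.mpr ⟨s, hs, ?_⟩
  have h1 : s • algebraMap E₀ E y = algebraMap E₀ E (s • y) := by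
    rw [Algebra.smul_def, Algebra.smul_def, map_mul, ← IsScalarTower.algebraMap_apply]
  rw [h1]
  exact hsy.algebraMap

/-- The Gauss closure is stable under multiplication by elements of `B(x)`. -/
theorem mul_mem_gaussClosure {A : Type} [CommRing A] {E : Type} [Field E] [Algebra A E]
    {ϖ : A} {x : E} (hx : Transcendental A x) {y z : E}
    (hy : y ∈ chartClosure A E x) (hz : z ∈ gaussClosure A E ϖ x) :
    y * z ∈ gaussClosure A E ϖ x := by
  letI iR : Algebra A[X] E := polyAlgebra A E x
  have hc : IsChart A A[X] x ϖ (C ϖ) := isChart_poly x hx ϖ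
  obtain ⟨s, hs, hsz⟩ := hc.mem_gaussClosure_iff.mp hz
  refine hc.mem_gaussClosure_iff.mpr ⟨s, hs, ?_⟩
  rw [← mul_smul_comm]
  exact (hc.mem_chartClosure_iff.mp hy).mul hsz

/-- **GB tower step**, second form: the different divides an element `d` of `E₀` which is a
unit of the Gauss closure of `E₀`. -/
theorem simpleGoodBasis' (A : Type) [CommRing A] [IsDomain A] [IsDiscreteValuationRing A]
    (E₀ E : Type) [Field E₀] [Field E] [Algebra A E₀] [Algebra A E] [Algebra E₀ E]
    [IsScalarTower A E₀ E] [CharZero E₀]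
    (hinj : Function.Injective (algebraMap A E₀))
    (ϖ : A) (hϖ : Irreducible ϖ) (x : E₀) (hx : Transcendental A x)
    (v : E) (hvint : IsIntegral E₀ v) (hadj : Algebra.adjoin E₀ ({v} : Set E) = ⊤)
    (hvB : v ∈ chartClosure A E (algebraMap E₀ E x))
    (d : E₀) (hd0 : d ≠ 0) (hd : d⁻¹ ∈ gaussClosure A E₀ ϖ x)
    (hdv : algebraMap E₀ E d / aeval v (derivative (minpoly E₀ v)) ∈
      chartClosure A E (algebraMap E₀ E x))
    (hgb : GoodBasis A E₀ ϖ x) : GoodBasis A E ϖ (algebraMap E₀ E x) := by
  have hx' : Transcendental A (algebraMap E₀ E x) :=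
    (transcendental_algebraMap_iff (algebraMap E₀ E).injective).mpr hx
  refine simpleGoodBasis A E₀ E hinj ϖ hϖ x hx v hvint hadj hvB ?_ hgb
  have h1 : (aeval v (derivative (minpoly E₀ v)))⁻¹ =
      (algebraMap E₀ E d / aeval v (derivative (minpoly E₀ v))) * algebraMap E₀ E d⁻¹ := by
    have hd0' : algebraMap E₀ E d ≠ 0 := (_root_.map_ne_zero _).mpr hd0
    rw [map_inv₀]
    field_simp
  rw [h1]
  exact mul_mem_gaussClosure hx' hdv (algebraMap_mem_gaussClosure hx hd)

end Fermat.Agent.H74.ES1KL
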