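import Mathlib
import Fermat.Prelude.Def_ModularCurve_LaurentCoeff

/-!
# P-ES1 / ES1-KL (helper74): descent of membership along the extension of the constant field

`mem_of_coeffEmb_mem` : let `F₀ ⊆ ℚ((q))` be a subfield and `L` a field of characteristic zero.
If `y ∈ ℚ((q))` and its image in `L((q))` lies in `L · F₀ = laurentBaseChange L F₀`, then `y ∈ F₀`.

Proof: `coeffEmb y = r / s` with `r, s` in the `L`-span of `coeffEmb F₀`; apply a `ℚ`-linear
functional `φ : L → ℚ` coefficientwise (it is `ℚ((q))`-linear) with `φ(s) ≠ 0`.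
-/

set_option autoImplicit false
set_option linter.unusedSectionVars false

noncomputable section

namespace Fermat.Agent.H74.ES1KL

open ModularCurve

section Descent

variable (L : Type*) [Field L] [Algebra ℚ L] (F₀ : IntermediateField ℚ (LaurentSeries ℚ))

/-- The coefficients of `c · w` for a constant `c`. -/
theorem coeff_algebraMap_mul' (c : L) (w : LaurentSeries L) (n : ℤ) :
    (algebraMap L (LaurentSeries L) c * w).coeff n = c * w.coeff n := by
  rw [algebraMap_laurentSeries_eq_single, HahnSeries.coeff_single_zero_mul]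

/-- Coordinates of an element of the `L`-span of `F₀` with respect to a `ℚ`-linear functional on
`L`, compatible with multiplication by rational Laurent series. -/
theorem exists_coord_of_mem_span (w : LaurentSeries L)
    (hw : w ∈ @Submodule.span L (LaurentSeries L) _ _ Algebra.toModule
      (⇑(coeffEmb L) '' (F₀ : Set (LaurentSeries ℚ))))
    (φ : L →ₗ[ℚ] ℚ) :
    ∃ g ∈ F₀, ∀ (y : LaurentSeries ℚ) (n : ℤ),
      φ ((coeffEmb L y * w).coeff n) = (y * g).coeff n := by
  induction hw using Submodule.span_induction generalizing φ with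
  | mem x hx =>
    obtain ⟨f, hf, rfl⟩ := hx
    refine ⟨algebraMap ℚ (LaurentSeries ℚ) (φ 1) * f, mul_mem (F₀.algebraMap_mem _) hf,
      fun y n => ?_⟩
    rw [← map_mul, coeffEmb_coeff, mul_left_comm, coeff_algebraMap_mul',
      Algebra.algebraMap_eq_smul_one, map_smul, smul_eq_mul, mul_comm]
  | zero =>
    exact ⟨0, zero_mem _, fun y n => by simp⟩
  | add x y _ _ hx hy =>
    obtain ⟨g1, hg1, h1⟩ := hx φ
    obtain ⟨g2, hg2, h2⟩ := hy φ
    refine ⟨g1 + g2, add_mem hg1 hg2, fun z n => ?_⟩
    rw [mul_add, HahnSeries.coeff_add, map_add, h1, h2, mul_add, HahnSeries.coeff_add]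
  | smul c x _ hx =>
    obtain ⟨g, hg, h⟩ := hx (φ.comp (LinearMap.mulLeft ℚ c))
    refine ⟨g, hg, fun y n => ?_⟩
    rw [← h y n, Algebra.smul_def, mul_left_comm, coeff_algebraMap_mul']
    rfl

/-- The `L`-algebra generated by `coeffEmb F₀` is the `L`-span of `coeffEmb F₀`. -/
theorem adjoin_coeffEmb_le_span (w : LaurentSeries L)
    (hw : w ∈ Algebra.adjoin L (⇑(coeffEmb L) '' (F₀ : Set (LaurentSeries ℚ)))) :
    w ∈ @Submodule.span L (LaurentSeries L) _ _ Algebra.toModule
      (⇑(coeffEmb L) '' (F₀ : Set (LaurentSeries ℚ))) := by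
  have h1 : (⇑(coeffEmb L) '' (F₀ : Set (LaurentSeries ℚ))) =
      ((F₀.toSubfield.toSubring.toSubmonoid.map
        ((coeffEmb L : LaurentSeries ℚ →+* LaurentSeries L) : LaurentSeries ℚ →* LaurentSeries L)
        : Submonoid (LaurentSeries L)) : Set (LaurentSeries L)) := by
    ext z
    simp only [Set.mem_image, SetLike.mem_coe, Submonoid.coe_map]
    rfl
  have h2 := Algebra.adjoin_eq_span L (⇑(coeffEmb L) '' (F₀ : Set (LaurentSeries ℚ)))
  have h3 : w ∈ (Algebra.adjoin L (⇑(coeffEmb L) '' (F₀ : Set (LaurentSeries ℚ)))).toSubmodule :=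
    hw
  rw [h2] at h3
  rw [h1]
  rw [h1, Submonoid.closure_eq] at h3
  exact h3

variable {L F₀}

/-- **Descent of membership**: a rational Laurent series lying in `L · F₀` lies in `F₀`. -/
theorem mem_of_coeffEmb_mem {y : LaurentSeries ℚ}
    (hy : coeffEmb L y ∈ laurentBaseChange L F₀) : y ∈ F₀ := by
  rw [laurentBaseChange, IntermediateField.mem_adjoin_iff_div] at hy
  obtain ⟨r, hr, s, hs, hrs⟩ := hy
  have hr' := adjoin_coeffEmb_le_span L F₀ r hr
  have hs' := adjoin_coeffEmb_le_span L F₀ s hs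
  by_cases hs0 : s = 0
  · rw [hs0, div_zero] at hrs
    have : y = 0 := (coeffEmb L).injective (by rw [hrs, map_zero])
    rw [this]
    exact zero_mem _
  · obtain ⟨n₀, hn₀⟩ : ∃ n₀, s.coeff n₀ ≠ 0 := by
      by_contra hcon
      push Not at hcon
      exact hs0 (HahnSeries.ext (funext hcon))
    obtain ⟨φ, hφ⟩ : ∃ φ : Module.Dual ℚ L, φ (s.coeff n₀) ≠ 0 := by
      by_contra hcon
      push Not at hcon
      exact hn₀ ((Module.forall_dual_apply_eq_zero_iff ℚ (s.coeff n₀)).mp hcon)
    obtain ⟨gs, hgs, h1⟩ := exists_coord_of_mem_span L F₀ s hs' φ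
    obtain ⟨gr, hgr, h2⟩ := exists_coord_of_mem_span L F₀ r hr' φ
    have hmul : coeffEmb L y * s = r := by
      rw [hrs, div_mul_cancel₀ _ hs0]
    have hgs0 : gs ≠ 0 := by
      intro h0
      have h3 := h1 1 n₀
      rw [map_one, one_mul, one_mul, h0, HahnSeries.coeff_zero] at h3
      exact hφ h3
    have hyg : y * gs = gr := by
      apply HahnSeries.ext
      funext n
      rw [← h1 y n, hmul]
      have h3 := h2 1 n
      rw [map_one, one_mul, one_mul] at h3
      exact h3
    have : y = gr / gs := by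
      rw [← hyg, mul_div_cancel_right₀ _ hgs0]
    rw [this]
    exact div_mem hgr hgs

end Descent

end Fermat.Agent.H74.ES1KL
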