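import Mathlib

/-!
# P-ES1 / ES1-KL (helper74): the universal split polynomial and its discriminant

For a finite type `ι`: `splitPoly ι R = ∏ i, (X - X_i) ∈ R[X_i][X]` and
`discPoly ι R = ∏ i, ∏_{j ≠ i} (X_i - X_j) ∈ R[X_i]`.  Their coefficients are invariant under
every permutation of the variables, and they specialise to `∏ (X - v i)` and
`∏ i, ∏_{j ≠ i} (v i - v j)`.
-/

set_option autoImplicit false
set_option linter.unusedSectionVars false

noncomputable section

open Polynomial

namespace Fermat.Agent.H74.ES1KL

section

variable (ι : Type*) [Fintype ι] [DecidableEq ι] (R : Type*) [CommRing R]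

/-- The universal split polynomial `∏ i, (X - X_i)`. -/
def splitPoly : (MvPolynomial ι R)[X] := ∏ i : ι, (X - C (MvPolynomial.X i))

/-- The universal discriminant `∏ i, ∏_{j ≠ i} (X_i - X_j)`. -/
def discPoly : MvPolynomial ι R :=
  ∏ i : ι, ∏ j ∈ (Finset.univ : Finset ι).erase i, (MvPolynomial.X i - MvPolynomial.X j)

variable {ι R}

theorem map_splitPoly {S : Type*} [CommRing S] (φ : MvPolynomial ι R →+* S) :
    (splitPoly ι R).map φ = ∏ i : ι, (X - C (φ (MvPolynomial.X i))) := by
  rw [splitPoly, Polynomial.map_prod]
  refine Finset.prod_congr rfl fun i _ => ?_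
  rw [Polynomial.map_sub, Polynomial.map_X, Polynomial.map_C]

/-- The coefficients of the universal split polynomial are symmetric. -/
theorem rename_coeff_splitPoly (e : ι ≃ ι) (k : ℕ) :
    MvPolynomial.rename e ((splitPoly ι R).coeff k) = (splitPoly ι R).coeff k := by
  have h1 : (splitPoly ι R).map
      ((MvPolynomial.rename e : MvPolynomial ι R →ₐ[R] MvPolynomial ι R) :
        MvPolynomial ι R →+* MvPolynomial ι R) = splitPoly ι R := by
    rw [map_splitPoly, splitPoly]
    refine Fintype.prod_equiv e _ _ fun i => ?_
    rw [RingHom.coe_coe, MvPolynomial.rename_X]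
  have h2 := congrArg (fun p => p.coeff k) h1
  simp only [Polynomial.coeff_map, RingHom.coe_coe] at h2
  exact h2

/-- The universal discriminant is symmetric. -/
theorem rename_discPoly (e : ι ≃ ι) :
    MvPolynomial.rename e (discPoly ι R) = discPoly ι R := by
  rw [discPoly, map_prod]
  refine Fintype.prod_equiv e _ _ fun i => ?_
  rw [map_prod]
  refine Finset.prod_equiv e ?_ ?_
  · intro j
    simp only [Finset.mem_erase, Finset.mem_univ, and_true, ne_eq, e.injective.eq_iff]
  · intro j _
    rw [map_sub, MvPolynomial.rename_X, MvPolynomial.rename_X]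

/-- Specialisation of the coefficients of the universal split polynomial. -/
theorem aeval_coeff_splitPoly {S : Type*} [CommRing S] [Algebra R S] (v : ι → S) (k : ℕ) :
    MvPolynomial.aeval v ((splitPoly ι R).coeff k) = (∏ i : ι, (X - C (v i)) : S[X]).coeff k := by
  have h1 := map_splitPoly (ι := ι) (R := R)
    ((MvPolynomial.aeval v : MvPolynomial ι R →ₐ[R] S) : MvPolynomial ι R →+* S)
  have h2 := congrArg (fun p => p.coeff k) h1
  simp only [Polynomial.coeff_map, RingHom.coe_coe, MvPolynomial.aeval_X] at h2
  exact h2

/-- Specialisation of the universal discriminant. -/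
theorem aeval_discPoly {S : Type*} [CommRing S] [Algebra R S] (v : ι → S) :
    MvPolynomial.aeval v (discPoly ι R)
      = ∏ i : ι, ∏ j ∈ (Finset.univ : Finset ι).erase i, (v i - v j) := by
  rw [discPoly, map_prod]
  refine Finset.prod_congr rfl fun i _ => ?_
  rw [map_prod]
  refine Finset.prod_congr rfl fun j _ => ?_
  rw [map_sub, MvPolynomial.aeval_X, MvPolynomial.aeval_X]

end

end Fermat.Agent.H74.ES1KL
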