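import Fermat.Agent.H74.ES1KL.SymF1
import Fermat.Agent.H74.ES1KL.SymPoly
import Fermat.Agent.H57.ES1.GaussNormalForm1

/-!
# P-ES1 / ES1-KL, GB1 (helper74): the polynomial `∏ (X - v_g)` over `ℚ`

`g` runs through `(ℤ/M)ˣ / ± 1`.

* `coeff_split_mem_full` : the coefficients of `∏_g (X - v_g)` lie in `modularFunctionFieldFull M`.
* `disc_mem_full` : `∏_g ∏_{g' ≠ g} (v_g - v_g')` lies in `modularFunctionFieldFull M`.
* `coeff_split_mem_int`, `disc_mem_int` : both have integral `q`-expansions.
* `leadingCoeff_disc` : the leading coefficient of the discriminant is `± 1`.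
-/

set_option autoImplicit false
set_option linter.unusedSectionVars false

noncomputable section

open Polynomial ModularCurve

namespace Fermat.Agent.H74.ES1KL

open Fermat.Agent.H29.ES1

variable (M : ℕ) [NeZero M]

theorem vq_mem_F1 (g : UnitsModSign M) : vq M g ∈ F1 M := by
  induction g using QuotientGroup.induction_on with
  | H a => exact vGen_mem_F1 M a

/-- The Laurent series over `ℚ` with integral coefficients. -/
def intSeries : Subring (LaurentSeries ℚ) := (coeffMap (Int.castRingHom ℚ)).range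

theorem vq_mem_intSeries (g : UnitsModSign M) : vq M g ∈ intSeries := by
  induction g using QuotientGroup.induction_on with
  | H a => exact ⟨Fermat.Agent.H57.ES1.vGenInt M (a : ZMod M),
      Fermat.Agent.H57.ES1.coeffMap_vGenInt M _⟩

variable [Fintype (UnitsModSign M)] [DecidableEq (UnitsModSign M)]

/-- **SYM1 for the coefficients**: `∏_g (X - v_g) ∈ F₀(M)[X]`. -/
theorem coeff_split_mem_full (hV : VFunStatement) (hM : 3 ≤ M) (k : ℕ) :
    (∏ g : UnitsModSign M, (X - C (vq M g)) : (LaurentSeries ℚ)[X]).coeff k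
      ∈ modularFunctionFieldFull M := by
  rw [← aeval_coeff_splitPoly (R := ℚ) (vq M) k]
  refine aeval_vq_mem_full M hV hM _ (fun g₀ => ?_)
  exact rename_coeff_splitPoly (Equiv.mulLeft g₀) k

/-- **SYM1 for the discriminant.** -/
theorem disc_mem_full (hV : VFunStatement) (hM : 3 ≤ M) :
    (∏ g : UnitsModSign M, ∏ g' ∈ (Finset.univ : Finset (UnitsModSign M)).erase g,
      (vq M g - vq M g')) ∈ modularFunctionFieldFull M := by
  rw [← aeval_discPoly (R := ℚ) (vq M)]
  refine aeval_vq_mem_full M hV hM _ (fun g₀ => ?_)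
  exact rename_discPoly (Equiv.mulLeft g₀)

theorem coeff_split_mem_int (k : ℕ) :
    (∏ g : UnitsModSign M, (X - C (vq M g)) : (LaurentSeries ℚ)[X]).coeff k ∈ intSeries := by
  choose w hw using vq_mem_intSeries M
  refine ⟨(∏ g : UnitsModSign M, (X - C (w g)) : (LaurentSeries ℤ)[X]).coeff k, ?_⟩
  rw [← Polynomial.coeff_map, Polynomial.map_prod]
  congr 1
  refine Finset.prod_congr rfl fun g _ => ?_
  rw [Polynomial.map_sub, Polynomial.map_X, Polynomial.map_C, hw]

theorem disc_mem_int :
    (∏ g : UnitsModSign M, ∏ g' ∈ (Finset.univ : Finset (UnitsModSign M)).erase g,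
      (vq M g - vq M g')) ∈ intSeries := by
  refine Subring.prod_mem _ fun g _ => Subring.prod_mem _ fun g' _ => ?_
  exact Subring.sub_mem _ (vq_mem_intSeries M g) (vq_mem_intSeries M g')

/-- The leading coefficient of the discriminant is `± 1`. -/
theorem leadingCoeff_disc (hS : GenSepStatement) (hM : 3 ≤ M) :
    (∏ g : UnitsModSign M, ∏ g' ∈ (Finset.univ : Finset (UnitsModSign M)).erase g,
      (vq M g - vq M g')).leadingCoeff = 1 ∨
    (∏ g : UnitsModSign M, ∏ g' ∈ (Finset.univ : Finset (UnitsModSign M)).erase g,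
      (vq M g - vq M g')).leadingCoeff = -1 := by
  have hmul : ∀ a b : LaurentSeries ℚ,
      (a.leadingCoeff = 1 ∨ a.leadingCoeff = -1) → (b.leadingCoeff = 1 ∨ b.leadingCoeff = -1) →
      ((a * b).leadingCoeff = 1 ∨ (a * b).leadingCoeff = -1) := by
    intro a b ha hb
    rw [HahnSeries.leadingCoeff_mul]
    rcases ha with ha | ha <;> rcases hb with hb | hb <;> rw [ha, hb] <;> norm_num
  have hone : ((1 : LaurentSeries ℚ).leadingCoeff = 1 ∨ (1 : LaurentSeries ℚ).leadingCoeff = -1) :=
    Or.inl HahnSeries.leadingCoeff_one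
  refine Finset.prod_induction _
    (fun a : LaurentSeries ℚ => a.leadingCoeff = 1 ∨ a.leadingCoeff = -1) hmul hone ?_
  intro g _
  refine Finset.prod_induction _
    (fun a : LaurentSeries ℚ => a.leadingCoeff = 1 ∨ a.leadingCoeff = -1) hmul hone ?_
  intro g' hg'
  exact leadingCoeff_vq_sub M hS hM (Finset.ne_of_mem_erase hg').symm

/-- The discriminant has a coefficient equal to `± 1`. -/
theorem exists_coeff_disc (hS : GenSepStatement) (hM : 3 ≤ M) :
    ∃ n : ℤ, (∏ g : UnitsModSign M, ∏ g' ∈ (Finset.univ : Finset (UnitsModSign M)).erase g,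
      (vq M g - vq M g')).coeff n = 1 ∨
      (∏ g : UnitsModSign M, ∏ g' ∈ (Finset.univ : Finset (UnitsModSign M)).erase g,
      (vq M g - vq M g')).coeff n = -1 := by
  have h := leadingCoeff_disc M hS hM
  rw [HahnSeries.leadingCoeff_eq] at h
  exact ⟨_, h⟩

end Fermat.Agent.H74.ES1KL
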