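import Fermat.Agent.H74.ES1KL.GB1
import Fermat.Agent.H91.ES1KL.Interfaces1
import Fermat.Agent.H99.ES1.VFun
import Fermat.Agent.H60.LatSum
import Fermat.Agent.H87.ES1.LatSumQExp

/-!
# P-ES1 / ES1-KL, row 808 (helper74): `Gb1Statement`, UNCONDITIONAL

`gb1 : Fermat.Agent.H91.ES1KL.Gb1Statement` : the function field of `X₁(M)` over every number
field `K₁` has a good basis over `A₀[j]` at every prime `ℓ ∤ M` (including `ℓ = 2, 3`).
-/

set_option autoImplicit false

namespace Fermat.Agent.H74.ES1KL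

open Fermat.Agent.H29.ES1

/-- `Gb1Statement` from `VFunStatement`. -/
theorem gb1_of_vFun (hV : VFunStatement) : Fermat.Agent.H91.ES1KL.Gb1Statement :=
  fun M _ hM ℓ hℓ hℓM => modelGoodBasis_F1 M hV (by omega) ℓ hℓ hℓM

/-- **ES1-KL-GB1** (row 808), unconditional. -/
theorem gb1 : Fermat.Agent.H91.ES1KL.Gb1Statement :=
  gb1_of_vFun (Fermat.Agent.H99.ES1.vFunStatement Fermat.Agent.H60.latSumStatement
    Fermat.Agent.H87.ES1.latSumQExp)

/-- `Gb1Statement` in the shape of row 808 (the hypothesis is not needed). -/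
theorem gb1_of_sym1 (_hS : Fermat.Agent.H91.ES1KL.Sym1Statement) :
    Fermat.Agent.H91.ES1KL.Gb1Statement := gb1

end Fermat.Agent.H74.ES1KL
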