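import Fermat.Agent.H74.ES1KL.SplitGB

/-!
# P-ES1 / ES1-KL, GB1 abstract core, several generators (helper74)

Setting of `SimpleGB`.  Let `Q ∈ E₀[X]` be monic with coefficients in the localisation at `h` of
the integral closure, and let `E = E₀[S]` for a finite set `S` of roots of `Q` such that
`Q'(v)` is a unit of the localised integral closure for every `v ∈ S`.  Then a good basis of `E₀`
at `h` gives a good basis of `E` at `h` (`multiRoot_hasGoodBasisAt`): induction on the number of
generators, every step being `root_hasGoodBasisAt`.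

`multiSplit_hasGoodBasisAt` is the split form: `Q = ∏_{i ∈ I} (X - v i)` in `E[X]` with distinct
roots, `E = E₀[v i : i ∈ I]` and `d = ∏_i ∏_{j ≠ i} (v i - v j) ∈ E₀` a unit of the localised
integral closure.  No primitive element and no degree computation is needed.
-/

set_option autoImplicit false
set_option linter.style.haveILetI false
set_option linter.unusedSectionVars false

noncomputable section

open Polynomial Matrix

universe uE

namespace Fermat.Agent.H74.ES1KL

open Fermat.Agent.H3.KLKum

section Reflect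

variable {R : Type*} [CommRing R] {E' E : Type*} [Field E'] [Field E] [Algebra R E']
  [Algebra R E] [Algebra E' E] [IsScalarTower R E' E]

/-- Membership in the localised integral closure is reflected by field extensions. -/
theorem locInt_of_map {h : R} {y : E'} (hy : LocInt h (algebraMap E' E y)) : LocInt h y := by
  obtain ⟨s, hs, hi⟩ := hy
  refine ⟨s, hs, ?_⟩
  have h1 : s • algebraMap E' E y = algebraMap E' E (s • y) := by
    rw [Algebra.smul_def, Algebra.smul_def, map_mul, ← IsScalarTower.algebraMap_apply]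
  rw [h1] at hi
  exact (isIntegral_algebraMap_iff (algebraMap E' E).injective).mp hi

end Reflect

section Main

variable {R : Type*} [CommRing R] [IsDomain R] [IsIntegrallyClosed R]
variable {K : Type*} [Field K] [Algebra R K] [IsFractionRing R K]
variable {E₀ : Type*} [Field E₀] [Algebra K E₀] [Algebra R E₀] [IsScalarTower R K E₀]
  [FiniteDimensional K E₀] [CharZero E₀]

/-- The induction behind `multiRoot_hasGoodBasisAt`. -/
theorem multiRoot_aux {h : R} (hh : Prime h) {Q : E₀[X]} (hQ : Q.Monic)
    (hQc : ∀ i, LocInt h (Q.coeff i))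
    (hgb : Fermat.Agent.H91.HasGoodBasisAt R K E₀ (Ideal.span {h})) (n : ℕ) :
    ∀ (E : Type uE) [Field E] [Algebra K E] [Algebra R E] [IsScalarTower R K E]
      [FiniteDimensional K E] [Algebra E₀ E] [IsScalarTower K E₀ E] [IsScalarTower R E₀ E]
      (S : Finset E), S.card ≤ n →
      (∀ v ∈ S, aeval v Q = 0 ∧ aeval v (derivative Q) ≠ 0 ∧
        LocInt h (aeval v (derivative Q))⁻¹) →
      Algebra.adjoin E₀ (S : Set E) = ⊤ →
      Fermat.Agent.H91.HasGoodBasisAt R K E (Ideal.span {h}) := by
  classical
  induction n with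
  | zero =>
    intro E _ _ _ _ _ _ _ _ S hcard _ hadj
    have hS0 : S = ∅ := Finset.card_eq_zero.mp (Nat.le_zero.mp hcard)
    subst hS0
    have hadj0 : Algebra.adjoin E₀ ({0} : Set E) = ⊤ := by
      rw [eq_top_iff, ← hadj]
      exact Algebra.adjoin_mono (by simp)
    have hint0 : IsIntegral E₀ (0 : E) := isIntegral_zero
    let pb : PowerBasis E₀ E := PowerBasis.ofAdjoinEqTop hint0 hadj0
    have hpb : pb.gen = 0 := PowerBasis.ofAdjoinEqTop_gen hint0 hadj0
    refine root_hasGoodBasisAt (K := K) hh pb (Q := X) monic_X ?_ ?_ ?_ ?_ hgb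
    · intro i
      rw [coeff_X]
      split_ifs
      · exact LocInt.one hh
      · exact LocInt.zero hh
    · rw [hpb, aeval_X]
    · rw [derivative_X, map_one]
      exact one_ne_zero
    · rw [derivative_X, map_one, inv_one]
      exact LocInt.one hh
  | succ n ih =>
    intro E _ _ _ _ _ _ _ _ S hcard hS hadj
    rcases S.eq_empty_or_nonempty with hS0 | ⟨v, hv⟩
    · exact ih E S (by rw [hS0]; simp) hS hadj
    -- the field generated by the other generators
    set S' : Finset E := S.erase v with hS'
    have hcard' : S'.card ≤ n := by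
      rw [hS', Finset.card_erase_of_mem hv]
      omega
    have hfin : FiniteDimensional E₀ E := FiniteDimensional.right K E₀ E
    let E' : IntermediateField E₀ E := IntermediateField.adjoin E₀ (S' : Set E)
    have hmem : ∀ s ∈ S', s ∈ E' := fun s hs =>
      IntermediateField.subset_adjoin E₀ _ (Finset.mem_coe.mpr hs)
    haveI hT1 : IsScalarTower R K ↥E' := IsScalarTower.of_algebraMap_eq (fun r => by
      apply Subtype.ext
      show algebraMap R E r = algebraMap K E (algebraMap R K r)
      exact IsScalarTower.algebraMap_apply R K E r)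
    haveI hT2 : IsScalarTower K ↥E' E := IsScalarTower.of_algebraMap_eq (fun _ => rfl)
    haveI hT3 : IsScalarTower R ↥E' E := IsScalarTower.of_algebraMap_eq (fun _ => rfl)
    haveI hF1 : FiniteDimensional K ↥E' :=
      FiniteDimensional.of_injective (IsScalarTower.toAlgHom K ↥E' E).toLinearMap
        (algebraMap ↥E' E).injective
    haveI hC1 : CharZero ↥E' := charZero_of_injective_algebraMap (algebraMap E₀ ↥E').injective
    -- the generators inside `E'`
    let S'' : Finset ↥E' := S'.attach.image (fun s => (⟨s.1, hmem s.1 s.2⟩ : ↥E'))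
    have hS''mem : ∀ w ∈ S'', (w : E) ∈ S' := by
      intro w hw
      obtain ⟨s, -, rfl⟩ := Finset.mem_image.mp hw
      exact s.2
    have hS''card : S''.card ≤ n :=
      (Finset.card_image_le).trans (by rw [Finset.card_attach]; exact hcard')
    have hS''prop : ∀ w ∈ S'', aeval w Q = 0 ∧ aeval w (derivative Q) ≠ 0 ∧
        LocInt h (aeval w (derivative Q))⁻¹ := by
      intro w hw
      obtain ⟨h1, h2, h3⟩ := hS (w : E) (Finset.mem_of_mem_erase (hS''mem w hw))
      have e1 : ∀ P : E₀[X], algebraMap ↥E' E (aeval w P) = aeval (w : E) P := fun P =>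
        (aeval_algebraMap_apply E w P).symm
      refine ⟨?_, ?_, ?_⟩
      · apply (algebraMap ↥E' E).injective
        rw [e1, h1, map_zero]
      · intro h0
        apply h2
        rw [← e1, h0, map_zero]
      · apply locInt_of_map (E := E)
        rw [map_inv₀, e1]
        exact h3
    have hS''adj : Algebra.adjoin E₀ (S'' : Set ↥E') = ⊤ := by
      have hE'sub : E'.toSubalgebra = Algebra.adjoin E₀ (S' : Set E) :=
        IntermediateField.adjoin_toSubalgebra_of_isAlgebraic
          (fun x _ => (IsIntegral.of_finite E₀ x).isAlgebraic)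
      rw [eq_top_iff]
      rintro ⟨y, hy⟩ -
      have hy' : y ∈ Algebra.adjoin E₀ (S' : Set E) := by
        rw [← hE'sub]
        exact hy
      have key : ∀ z (hz : z ∈ Algebra.adjoin E₀ (S' : Set E)), ∀ hzE : z ∈ E',
          (⟨z, hzE⟩ : ↥E') ∈ Algebra.adjoin E₀ (S'' : Set ↥E') := by
        intro z hz
        induction hz using Algebra.adjoin_induction with
        | mem x hx =>
          intro hzE
          apply Algebra.subset_adjoin
          rw [Finset.mem_coe]
          exact Finset.mem_image.mpr ⟨⟨x, Finset.mem_coe.mp hx⟩, Finset.mem_attach _ _, rfl⟩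
        | algebraMap r =>
          intro hzE
          exact Subalgebra.algebraMap_mem _ r
        | add x y hx hy ihx ihy =>
          intro hzE
          have hxE : x ∈ E' := by
            show x ∈ E'.toSubalgebra
            rw [hE'sub]; exact hx
          have hyE : y ∈ E' := by
            show y ∈ E'.toSubalgebra
            rw [hE'sub]; exact hy
          exact add_mem (ihx hxE) (ihy hyE)
        | mul x y hx hy ihx ihy =>
          intro hzE
          have hxE : x ∈ E' := by
            show x ∈ E'.toSubalgebra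
            rw [hE'sub]; exact hx
          have hyE : y ∈ E' := by
            show y ∈ E'.toSubalgebra
            rw [hE'sub]; exact hy
          exact mul_mem (ihx hxE) (ihy hyE)
      exact key y hy' hy
    have hgb' : Fermat.Agent.H91.HasGoodBasisAt R K ↥E' (Ideal.span {h}) :=
      ih ↥E' S'' hS''card hS''prop hS''adj
    -- the last step
    obtain ⟨hv1, hv2, hv3⟩ := hS v hv
    have hadjv : Algebra.adjoin ↥E' ({v} : Set E) = ⊤ := by
      rw [eq_top_iff]
      intro y _
      have hy : y ∈ Algebra.adjoin E₀ (S : Set E) := by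
        rw [hadj]; exact Algebra.mem_top
      induction hy using Algebra.adjoin_induction with
      | mem s hs =>
        rw [Finset.mem_coe] at hs
        by_cases hsv : s = v
        · rw [hsv]
          exact Algebra.subset_adjoin (Set.mem_singleton v)
        · have hs' : s ∈ S' := Finset.mem_erase.mpr ⟨hsv, hs⟩
          have e : s = algebraMap ↥E' E (⟨s, hmem s hs'⟩ : ↥E') := rfl
          rw [e]
          exact Subalgebra.algebraMap_mem _ _
      | algebraMap r =>
        have e : algebraMap E₀ E r = algebraMap ↥E' E (algebraMap E₀ ↥E' r) := rfl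
        rw [e]
        exact Subalgebra.algebraMap_mem _ _
      | add x y _ _ ihx ihy => exact add_mem (ihx Algebra.mem_top) (ihy Algebra.mem_top)
      | mul x y _ _ ihx ihy => exact mul_mem (ihx Algebra.mem_top) (ihy Algebra.mem_top)
    have hvint : IsIntegral ↥E' v := IsIntegral.of_finite ↥E' v
    let pb : PowerBasis ↥E' E := PowerBasis.ofAdjoinEqTop hvint hadjv
    have hpb : pb.gen = v := PowerBasis.ofAdjoinEqTop_gen hvint hadjv
    refine root_hasGoodBasisAt (K := K) hh pb (Q := Q.map (algebraMap E₀ ↥E')) (hQ.map _)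
      ?_ ?_ ?_ ?_ hgb'
    · intro i
      rw [coeff_map]
      exact LocInt.map (hQc i)
    · rw [hpb, aeval_map_algebraMap]
      exact hv1
    · rw [hpb, derivative_map, aeval_map_algebraMap]
      exact hv2
    · rw [hpb, derivative_map, aeval_map_algebraMap]
      exact hv3

variable {E : Type*} [Field E] [Algebra K E] [Algebra R E] [IsScalarTower R K E]
  [FiniteDimensional K E]
  [Algebra E₀ E] [IsScalarTower K E₀ E] [IsScalarTower R E₀ E]

/-- **Good basis of `E₀[S]` for a finite set `S` of roots of a monic polynomial with unit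
derivative at these roots.** -/
theorem multiRoot_hasGoodBasisAt {h : R} (hh : Prime h) {Q : E₀[X]} (hQ : Q.Monic)
    (hQc : ∀ i, LocInt h (Q.coeff i)) (S : Finset E)
    (hS : ∀ v ∈ S, aeval v Q = 0 ∧ aeval v (derivative Q) ≠ 0 ∧
      LocInt h (aeval v (derivative Q))⁻¹)
    (hadj : Algebra.adjoin E₀ (S : Set E) = ⊤)
    (hgb : Fermat.Agent.H91.HasGoodBasisAt R K E₀ (Ideal.span {h})) :
    Fermat.Agent.H91.HasGoodBasisAt R K E (Ideal.span {h}) :=
  multiRoot_aux hh hQ hQc hgb S.card E S le_rfl hS hadj

/-- **Good basis of `E₀[v i : i ∈ I]` for a polynomial which splits in `E` with unit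
discriminant.** -/
theorem multiSplit_hasGoodBasisAt {h : R} (hh : Prime h)
    {ι : Type*} [DecidableEq ι] (I : Finset ι) (v : ι → E) (hinj : Set.InjOn v I)
    {Q : E₀[X]} (hQ : Q.Monic) (hQc : ∀ i, LocInt h (Q.coeff i))
    (hsplit : Q.map (algebraMap E₀ E) = ∏ i ∈ I, (X - C (v i)))
    (hadj : Algebra.adjoin E₀ (v '' (I : Set ι)) = ⊤)
    (d : E₀) (hd : algebraMap E₀ E d = ∏ i ∈ I, ∏ j ∈ I.erase i, (v i - v j))
    (hdinv : LocInt h d⁻¹)
    (hgb : Fermat.Agent.H91.HasGoodBasisAt R K E₀ (Ideal.span {h})) :
    Fermat.Agent.H91.HasGoodBasisAt R K E (Ideal.span {h}) := by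
  classical
  have hroot : ∀ i ∈ I, aeval (v i) Q = 0 := by
    intro i hi
    rw [← eval_map_algebraMap, hsplit, eval_prod]
    exact Finset.prod_eq_zero hi (by rw [eval_sub, eval_X, eval_C, sub_self])
  have hvL : ∀ i ∈ I, LocInt h (v i) := fun i hi => locInt_of_root hh hQ hQc (hroot i hi)
  have hD : ∀ i ∈ I, aeval (v i) (derivative Q) = ∏ j ∈ I.erase i, (v i - v j) :=
    fun i hi => aeval_derivative_of_split I v hsplit hi
  have hD0 : ∀ i ∈ I, (∏ j ∈ I.erase i, (v i - v j)) ≠ 0 := by
    intro i hi
    rw [Finset.prod_ne_zero_iff]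
    intro j hj
    rw [Finset.mem_erase] at hj
    exact sub_ne_zero.mpr (fun hEq => hj.1 (hinj hj.2 hi hEq.symm))
  have hDL : ∀ i ∈ I, LocInt h (∏ j ∈ I.erase i, (v i - v j)) := by
    intro i hi
    refine Finset.prod_induction _ (LocInt h) (fun a b => LocInt.mul hh) (LocInt.one hh) ?_
    intro j hj
    exact LocInt.sub hh (hvL i hi) (hvL j (Finset.mem_of_mem_erase hj))
  have hinvL : ∀ i₀ ∈ I, LocInt h (∏ j ∈ I.erase i₀, (v i₀ - v j))⁻¹ := by
    intro i₀ hi₀
    have h1 : (∏ j ∈ I.erase i₀, (v i₀ - v j))⁻¹ =
        (∏ i ∈ I.erase i₀, ∏ j ∈ I.erase i, (v i - v j)) * algebraMap E₀ E d⁻¹ := by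
      have h2 : algebraMap E₀ E d = (∏ j ∈ I.erase i₀, (v i₀ - v j)) *
          ∏ i ∈ I.erase i₀, ∏ j ∈ I.erase i, (v i - v j) := by
        rw [hd, ← Finset.mul_prod_erase I _ hi₀]
      rw [map_inv₀, h2, mul_inv]
      have h3 := hD0 i₀ hi₀
      have h4 : (∏ i ∈ I.erase i₀, ∏ j ∈ I.erase i, (v i - v j)) ≠ 0 := by
        rw [Finset.prod_ne_zero_iff]
        exact fun i hi => hD0 i (Finset.mem_of_mem_erase hi)
      field_simp
    rw [h1]
    refine LocInt.mul hh ?_ (LocInt.map hdinv)
    refine Finset.prod_induction _ (LocInt h) (fun a b => LocInt.mul hh) (LocInt.one hh) ?_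
    intro i hi
    exact hDL i (Finset.mem_of_mem_erase hi)
  refine multiRoot_hasGoodBasisAt (K := K) hh hQ hQc (I.image v) ?_ ?_ hgb
  · intro w hw
    obtain ⟨i, hi, rfl⟩ := Finset.mem_image.mp hw
    refine ⟨hroot i hi, ?_, ?_⟩
    · rw [hD i hi]
      exact hD0 i hi
    · rw [hD i hi]
      exact hinvL i hi
  · rw [Finset.coe_image]
    exact hadj

end Main

end Fermat.Agent.H74.ES1KL
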