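import Fermat.Agent.H74.ES1KL.SimpleGB

/-!
# P-ES1 / ES1-KL, GB1 abstract core, second form (helper74): good basis of `E₀(v)` for a root
`v` of a monic polynomial `Q` with unit derivative at `v`

Setting of `SimpleGB`.  `E = E₀(v)` (power basis `pb` with generator `v`), `Q ∈ E₀[X]` monic with
`Q(v) = 0`, the coefficients of `Q` in the localisation at `h` of the integral closure
(`LocInt h`), `Q'(v) ≠ 0` and `LocInt h (Q'(v))⁻¹`.  Then a good basis of `E₀` at `h` gives a
good basis of `E` at `h` (`root_hasGoodBasisAt`).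

Neither is `Q` required to be the minimal polynomial of `v`, nor `v` to be integral over `R`.
-/

set_option autoImplicit false
set_option linter.style.haveILetI false
set_option linter.unusedSectionVars false

noncomputable section

open Polynomial Matrix

namespace Fermat.Agent.H74.ES1KL

open Fermat.Agent.H3.KLKum

section Scale

variable {E₀ E : Type*} [Field E₀] [Field E] [Algebra E₀ E] [CharZero E₀]

/-- The derivative of `scaleRoots Q s` at `s v`. -/
theorem aeval_derivative_scaleRoots (Q : E₀[X]) (s : E₀) (v : E) :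
    aeval (algebraMap E₀ E s * v) (derivative (scaleRoots Q s)) =
      algebraMap E₀ E s ^ (Q.natDegree - 1) * aeval v (derivative Q) := by
  have h1 : derivative (scaleRoots Q s) = scaleRoots (derivative Q) s := by
    ext i
    rw [coeff_derivative, coeff_scaleRoots, coeff_scaleRoots, coeff_derivative,
      natDegree_derivative]
    have : Q.natDegree - (i + 1) = Q.natDegree - 1 - i := by omega
    rw [this]
    ring
  rw [h1, aeval_def, scaleRoots_eval₂_mul, natDegree_derivative, aeval_def]

end Scale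

section Loc

variable {R : Type*} [CommRing R] {E₀ : Type*} [Field E₀] [Algebra R E₀]

/-- A common denominator for finitely many elements of the localised integral closure. -/
theorem locInt_common {h : R} (hh : Prime h) {ι : Type*} (I : Finset ι) (y : ι → E₀)
    (hy : ∀ i ∈ I, LocInt h (y i)) :
    ∃ s : R, ¬ h ∣ s ∧ ∀ i ∈ I, IsIntegral R (s • y i) := by
  classical
  induction I using Finset.induction_on with
  | empty => exact ⟨1, hh.not_dvd_one, fun i hi => absurd hi (Finset.notMem_empty i)⟩
  | insert i I hi ih =>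
    obtain ⟨s₁, hs₁, h₁⟩ := hy i (Finset.mem_insert_self i I)
    obtain ⟨s₂, hs₂, h₂⟩ := ih (fun j hj => hy j (Finset.mem_insert_of_mem hj))
    refine ⟨s₁ * s₂, fun hd => (hh.dvd_or_dvd hd).elim hs₁ hs₂, fun j hj => ?_⟩
    rcases Finset.mem_insert.mp hj with rfl | hj
    · rw [mul_comm, mul_smul]
      exact h₁.smul _
    · rw [mul_smul]
      exact (h₂ j hj).smul _

/-- The coefficients of `scaleRoots Q s` are integral if `s` times the coefficients of the monic
polynomial `Q` are integral. -/
theorem isIntegral_coeff_scaleRoots {Q : E₀[X]} (hQ : Q.Monic) (s : R)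
    (hs : ∀ i, IsIntegral R (s • Q.coeff i)) (i : ℕ) :
    IsIntegral R ((scaleRoots Q (algebraMap R E₀ s)).coeff i) := by
  rw [coeff_scaleRoots]
  rcases lt_trichotomy i Q.natDegree with hi | hi | hi
  · have h1 : Q.natDegree - i = (Q.natDegree - i - 1) + 1 := by omega
    rw [h1, pow_succ, ← mul_assoc, mul_comm (Q.coeff i * _), ← mul_assoc, ← Algebra.smul_def]
    exact (hs i).mul (isIntegral_algebraMap.pow _)
  · rw [hi, Nat.sub_self, pow_zero, mul_one, coeff_natDegree, hQ.leadingCoeff]
    exact isIntegral_one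
  · rw [coeff_eq_zero_of_natDegree_lt hi, zero_mul]
    exact isIntegral_zero

end Loc

section Main

variable {R : Type*} [CommRing R] [IsDomain R] [IsIntegrallyClosed R]
variable {K : Type*} [Field K] [Algebra R K] [IsFractionRing R K]
variable {E₀ : Type*} [Field E₀] [Algebra K E₀] [Algebra R E₀] [IsScalarTower R K E₀]
  [FiniteDimensional K E₀]
variable {E : Type*} [Field E] [Algebra K E] [Algebra R E] [IsScalarTower R K E]
  [FiniteDimensional K E]
  [Algebra E₀ E] [IsScalarTower K E₀ E] [IsScalarTower R E₀ E]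

/-- A monic factor of a monic polynomial with integral coefficients has integral
coefficients. -/
theorem isIntegral_coeff_of_dvd_of_isIntegral {Q T : E₀[X]} (hQ : Q.Monic)
    (hQc : ∀ i, IsIntegral R (Q.coeff i)) (hT : T.Monic) (hTQ : T ∣ Q) (i : ℕ) :
    IsIntegral R (T.coeff i) := by
  have hl : Q ∈ Polynomial.lifts (algebraMap (integralClosure R E₀) E₀) := by
    rw [Polynomial.lifts_iff_coeff_lifts]
    intro n
    exact ⟨⟨Q.coeff n, hQc n⟩, rfl⟩
  obtain ⟨Q', hQ', -, hQ'm⟩ := Polynomial.lifts_and_natDegree_eq_and_monic hl hQ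
  have h1 : IsIntegral (integralClosure R E₀) (T.coeff i) :=
    Polynomial.isIntegral_coeff_of_dvd Q' T hQ'm hT (by rw [hQ']; exact hTQ) i
  exact isIntegral_trans _ h1

/-- **Lemma A.**  The inverse different of `w` from a monic polynomial with integral
coefficients vanishing at `w` whose derivative at `w` is a unit at `h`. -/
theorem locInt_inv_minpoly_derivative {h : R} {w : E} (hw : IsIntegral R w)
    {Q : E₀[X]} (hQ : Q.Monic) (hQc : ∀ i, IsIntegral R (Q.coeff i)) (hQw : aeval w Q = 0)
    (hQ0 : aeval w (derivative Q) ≠ 0) (hQder : LocInt h (aeval w (derivative Q))⁻¹) :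
    LocInt h (aeval w (derivative (minpoly E₀ w)))⁻¹ := by
  have hwE₀ : IsIntegral E₀ w := hw.tower_top
  obtain ⟨T, hT⟩ := minpoly.dvd E₀ w hQw
  have hTm : T.Monic := by
    have h1 : (minpoly E₀ w * T).Monic := hT ▸ hQ
    exact (minpoly.monic hwE₀).of_mul_monic_left h1
  have hTc : ∀ i, IsIntegral R (T.coeff i) :=
    isIntegral_coeff_of_dvd_of_isIntegral hQ hQc hTm ⟨minpoly E₀ w, by rw [hT, mul_comm]⟩
  have hTw : IsIntegral R (aeval w T) := by
    rw [aeval_eq_sum_range]
    refine IsIntegral.sum _ fun i _ => ?_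
    rw [Algebra.smul_def]
    exact ((hTc i).algebraMap).mul (hw.pow _)
  have hder : aeval w (derivative Q) = aeval w (derivative (minpoly E₀ w)) * aeval w T := by
    rw [hT, derivative_mul, map_add, map_mul, map_mul, minpoly.aeval, zero_mul, add_zero]
  have hT0 : aeval w T ≠ 0 := fun h0 => hQ0 (by rw [hder, h0, mul_zero])
  have hP0 : aeval w (derivative (minpoly E₀ w)) ≠ 0 := fun h0 =>
    hQ0 (by rw [hder, h0, zero_mul])
  obtain ⟨t, ht, hti⟩ := hQder
  refine ⟨t, ht, ?_⟩
  have h2 : t • (aeval w (derivative (minpoly E₀ w)))⁻¹ =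
      aeval w T * (t • (aeval w (derivative Q))⁻¹) := by
    rw [hder, mul_smul_comm, mul_inv]
    field_simp
  rw [h2]
  exact hTw.mul hti

variable [CharZero E₀]

/-- **Good basis of `E₀(v)` for a root `v` of a monic polynomial with unit derivative.** -/
theorem root_hasGoodBasisAt {h : R} (hh : Prime h) (pb : PowerBasis E₀ E)
    {Q : E₀[X]} (hQ : Q.Monic) (hQc : ∀ i, LocInt h (Q.coeff i)) (hQv : aeval pb.gen Q = 0)
    (hQ0 : aeval pb.gen (derivative Q) ≠ 0)
    (hQder : LocInt h (aeval pb.gen (derivative Q))⁻¹)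
    (hgb : Fermat.Agent.H91.HasGoodBasisAt R K E₀ (Ideal.span {h})) :
    Fermat.Agent.H91.HasGoodBasisAt R K E (Ideal.span {h}) := by
  classical
  haveI : FiniteDimensional E₀ E := pb.finite
  haveI : Algebra.IsSeparable E₀ E := inferInstance
  set v : E := pb.gen with hv
  -- a common denominator
  obtain ⟨s, hs, hsc⟩ := locInt_common hh (Finset.range (Q.natDegree + 1)) (fun i => Q.coeff i)
    (fun i _ => hQc i)
  have hsc' : ∀ i, IsIntegral R (s • Q.coeff i) := by
    intro i
    by_cases hi : i ∈ Finset.range (Q.natDegree + 1)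
    · exact hsc i hi
    · rw [Finset.mem_range, not_lt] at hi
      rw [coeff_eq_zero_of_natDegree_lt (by omega), smul_zero]
      exact isIntegral_zero
  have hs0 : s ≠ 0 := fun h0 => hs (h0 ▸ dvd_zero h)
  have hinj : Function.Injective (algebraMap R E₀) := by
    rw [IsScalarTower.algebraMap_eq R K E₀]
    exact (algebraMap K E₀).injective.comp (IsFractionRing.injective R K)
  set σ : E₀ := algebraMap R E₀ s with hσ
  have hσ0 : σ ≠ 0 := (map_ne_zero_iff _ hinj).mpr hs0
  have hσE : algebraMap E₀ E σ ≠ 0 := (_root_.map_ne_zero _).mpr hσ0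
  set w : E := algebraMap E₀ E σ * v with hw
  set Qw : E₀[X] := scaleRoots Q σ with hQw
  have hQwm : Qw.Monic := (monic_scaleRoots_iff σ).mpr hQ
  have hQwc : ∀ i, IsIntegral R (Qw.coeff i) := isIntegral_coeff_scaleRoots hQ s hsc'
  have hQww : aeval w Qw = 0 := scaleRoots_aeval_eq_zero hQv
  have hQdeg : Q.natDegree ≠ 0 := by
    intro h0
    have h1 : Q = 1 := by
      rw [eq_C_of_natDegree_eq_zero h0, ← h0, coeff_natDegree, hQ.leadingCoeff, C_1]
    rw [h1, derivative_one, map_zero] at hQ0
    exact hQ0 rfl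
  have hwint : IsIntegral R w := by
    refine IsIntegral.of_aeval_monic_of_isIntegral_coeff (p := Qw.map (algebraMap E₀ E))
      (hQwm.map _) ?_ ?_ ?_
    · rw [(hQwm).natDegree_map, natDegree_scaleRoots]
      exact hQdeg
    · rw [eval_map_algebraMap, hQww]
      exact isIntegral_zero
    · intro i
      rw [coeff_map]
      exact (hQwc i).algebraMap
  have hQwder : aeval w (derivative Qw) =
      algebraMap E₀ E σ ^ (Q.natDegree - 1) * aeval v (derivative Q) :=
    aeval_derivative_scaleRoots Q σ v
  have hQw0 : aeval w (derivative Qw) ≠ 0 := by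
    rw [hQwder]
    exact mul_ne_zero (pow_ne_zero _ hσE) hQ0
  have hQwL : LocInt h (aeval w (derivative Qw))⁻¹ := by
    obtain ⟨t, ht, hti⟩ := hQder
    refine ⟨t * s ^ (Q.natDegree - 1), fun hd => (hh.dvd_or_dvd hd).elim ht
      (fun hd' => hs (hh.dvd_of_dvd_pow hd')), ?_⟩
    have h1 : (t * s ^ (Q.natDegree - 1)) • (aeval w (derivative Qw))⁻¹ =
        t • (aeval v (derivative Q))⁻¹ := by
      rw [hQwder, Algebra.smul_def, Algebra.smul_def, map_mul, map_pow,
        IsScalarTower.algebraMap_apply R E₀ E s, mul_inv]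
      have h2 : (algebraMap E₀ E) ((algebraMap R E₀) s) ≠ 0 := hσE
      field_simp
      rfl
    rw [h1]
    exact hti
  -- the power basis generated by `w`
  have hadj : Algebra.adjoin E₀ ({w} : Set E) = ⊤ := by
    rw [eq_top_iff, ← pb.adjoin_gen_eq_top]
    refine Algebra.adjoin_le ?_
    intro z hz
    rw [Set.mem_singleton_iff] at hz
    have h3 : z = algebraMap E₀ E σ⁻¹ * w := by
      rw [hz, hw, ← mul_assoc, ← map_mul, inv_mul_cancel₀ hσ0, map_one, one_mul]
    rw [h3]
    exact mul_mem (Subalgebra.algebraMap_mem _ _) (Algebra.subset_adjoin rfl)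
  let pbw : PowerBasis E₀ E := PowerBasis.ofAdjoinEqTop hwint.tower_top hadj
  have hpbw : pbw.gen = w := PowerBasis.ofAdjoinEqTop_gen hwint.tower_top hadj
  refine simple_hasGoodBasisAt (K := K) hh pbw (by rw [hpbw]; exact hwint) ?_ hgb
  rw [hpbw]
  exact locInt_inv_minpoly_derivative hwint hQwm hQwc hQww hQw0 hQwL

end Main

end Fermat.Agent.H74.ES1KL
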