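import Fermat.Agent.H3.KLKumBasis

/-!
# P-ES1 / ES1-KL, GB1 abstract core (helper74): good basis of a simple extension with unit
different

Setting of `Fermat.Agent.H91.PurityMain` / `Fermat.Agent.H3.KLKum`: `R` an integrally closed
domain, `K = Frac R`, `E₀/K` a finite extension with a good basis at the prime element `h`
(`Fermat.Agent.H91.HasGoodBasisAt R K E₀ (span {h})`).  Let `E = E₀(v)` be a finite separable
extension with a power basis generated by `v`, `v` integral over `R`, such that the different
`P'(v)` (`P` the minimal polynomial of `v` over `E₀`) is a unit of the localisation at `h` of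
the integral closure (`LocInt h (P'(v))⁻¹`).  Then `E` has a good basis at `h`: `b_i v^k`.

This generalises `Fermat.Agent.H3.KLKum.kummer_hasGoodBasisAt` (the case `P = X^r - u`).
Proof: Euler's formula `Tr_{E/E₀} (v^j c_l / P'(v)) = [j = l]`, `P / (X - v) = ∑ c_l X^l`
(Mathlib: `Module.Basis.traceDual_powerBasis_eq`), gives a scaled dual family inside the
`R`-span of the `b_i v^k`.
-/

set_option autoImplicit false
set_option linter.style.haveILetI false
set_option linter.unusedSectionVars false

noncomputable section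

open Polynomial Matrix

namespace Fermat.Agent.H74.ES1KL

open Fermat.Agent.H3.KLKum

section Main

variable {R : Type*} [CommRing R] [IsDomain R] [IsIntegrallyClosed R]
variable {K : Type*} [Field K] [Algebra R K] [IsFractionRing R K]
variable {E₀ : Type*} [Field E₀] [Algebra K E₀] [Algebra R E₀] [IsScalarTower R K E₀]
  [FiniteDimensional K E₀]
variable {E : Type*} [Field E] [Algebra K E] [Algebra R E] [IsScalarTower R K E]
  [FiniteDimensional K E]
  [Algebra E₀ E] [IsScalarTower K E₀ E] [IsScalarTower R E₀ E]

/-- The coefficients of `P / (X - v)` are integral over `R` if `v` is. -/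
theorem isIntegral_coeff_minpolyDiv {v : E} (hv : IsIntegral R v) (l : ℕ) :
    IsIntegral R ((minpolyDiv E₀ v).coeff l) := by
  have hvE₀ : IsIntegral E₀ v := hv.tower_top
  refine Polynomial.isIntegral_coeff_of_dvd (minpoly R v) (minpolyDiv E₀ v) (minpoly.monic hv)
    (minpolyDiv_monic hvE₀) ?_ l
  have h1 : minpolyDiv E₀ v ∣ (minpoly E₀ v).map (algebraMap E₀ E) :=
    ⟨X - C v, (minpolyDiv_spec E₀ v).symm⟩
  have h2 : minpoly E₀ v ∣ (minpoly R v).map (algebraMap R E₀) :=
    minpoly.dvd _ _ (by
      rw [aeval_map_algebraMap]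
      exact minpoly.aeval R v)
  have h3 : (minpoly E₀ v).map (algebraMap E₀ E) ∣ (minpoly R v).map (algebraMap R E) := by
    rw [IsScalarTower.algebraMap_eq R E₀ E, ← Polynomial.map_map]
    exact Polynomial.map_dvd _ h2
  exact h1.trans h3

variable [Algebra.IsSeparable E₀ E]

/-- Euler's formula. -/
theorem trace_pow_mul_dual (pb : PowerBasis E₀ E) (j l : Fin pb.dim) :
    Algebra.trace E₀ E (pb.gen ^ (j : ℕ) * ((minpolyDiv E₀ pb.gen).coeff l /
      aeval pb.gen (derivative (minpoly E₀ pb.gen)))) = if j = l then 1 else 0 := by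
  haveI : FiniteDimensional E₀ E := pb.finite
  have h1 := (Module.Basis.traceDual_eq_iff (b := pb.basis)
    (v := pb.basis.traceDual)).mp rfl l j
  rw [Module.Basis.traceDual_powerBasis_eq, PowerBasis.coe_basis,
    Algebra.traceForm_apply, mul_comm] at h1
  exact h1

/-- The coordinates of `y` in the power basis are traces against the dual basis. -/
theorem repr_eq_trace (pb : PowerBasis E₀ E) (y : E) (j : Fin pb.dim) :
    pb.basis.repr y j = Algebra.trace E₀ E (y * ((minpolyDiv E₀ pb.gen).coeff j /
      aeval pb.gen (derivative (minpoly E₀ pb.gen)))) := by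
  haveI : FiniteDimensional E₀ E := pb.finite
  have h1 : y = ∑ i, pb.basis.repr y i • pb.basis i := (pb.basis.sum_repr y).symm
  conv_rhs => rw [h1]
  rw [Finset.sum_mul, map_sum]
  have h2 : ∀ i ∈ Finset.univ, Algebra.trace E₀ E (pb.basis.repr y i • pb.basis i *
      ((minpolyDiv E₀ pb.gen).coeff j / aeval pb.gen (derivative (minpoly E₀ pb.gen)))) =
      if i = j then pb.basis.repr y i else 0 := by
    intro i _
    rw [smul_mul_assoc, map_smul, PowerBasis.coe_basis, trace_pow_mul_dual pb i j, smul_eq_mul]
    split_ifs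
    · rw [mul_one]
    · rw [mul_zero]
  rw [Finset.sum_congr rfl h2, Finset.sum_ite_eq' Finset.univ j, if_pos (Finset.mem_univ j)]

/-- **Good basis of a simple extension with unit different.** -/
theorem simple_hasGoodBasisAt {h : R} (hh : Prime h) (pb : PowerBasis E₀ E)
    (hv : IsIntegral R pb.gen)
    (hder : LocInt h (aeval pb.gen (derivative (minpoly E₀ pb.gen)))⁻¹)
    (hgb : Fermat.Agent.H91.HasGoodBasisAt R K E₀ (Ideal.span {h})) :
    Fermat.Agent.H91.HasGoodBasisAt R K E (Ideal.span {h}) := by
  classical
  haveI : FiniteDimensional E₀ E := FiniteDimensional.right K E₀ E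
  obtain ⟨n, b, G0, hn, hint, hG0, hd0⟩ := hgb
  obtain ⟨t, ht, htu⟩ := hder
  have hdet : ¬ h ∣ G0.det := fun hd => hd0 (Ideal.mem_span_singleton.mpr hd)
  have hdet0 : G0.det ≠ 0 := fun h0 => hdet (h0 ▸ dvd_zero h)
  set v : E := pb.gen with hvdef
  set D : E := aeval v (derivative (minpoly E₀ v)) with hD
  set c : ℕ → E := fun l => (minpolyDiv E₀ v).coeff l with hc
  have hcint : ∀ l, IsIntegral R (c l) := fun l => isIntegral_coeff_minpolyDiv hv l
  -- the scaled inverse different
  set ι : E := t • D⁻¹ with hι
  have hιint : IsIntegral R ι := htu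
  have hdual_int : ∀ l, IsIntegral R (c l * ι) := fun l => (hcint l).mul hιint
  have hcι : ∀ l, c l * ι = t • (c l / D) := by
    intro l
    rw [hι, mul_smul_comm, div_eq_mul_inv]
  -- the family
  let β : Fin n × Fin pb.dim → E := fun a => algebraMap E₀ E (b a.1) * v ^ (a.2 : ℕ)
  have hβint : ∀ a, IsIntegral R (β a) :=
    fun a => ((hint a.1).algebraMap).mul (hv.pow _)
  choose G hG using fun a c : Fin n × Fin pb.dim =>
    Fermat.Agent.H91.exists_trace_eq (R := R) (K := K) ((hβint a).mul (hβint c))
  refine hasGoodBasisAt_of_family _ ?_ β hβint (Matrix.of G) hG ?_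
  · rw [Fintype.card_prod, Fintype.card_fin, Fintype.card_fin,
      ← Module.finrank_mul_finrank K E₀ E, hn, pb.finrank]
  rw [Ideal.mem_span_singleton]
  -- the scaled dual basis of `b`
  let bo : Fin n → E₀ := fun k => ∑ i, G0.adjugate i k • b i
  have hbo_int : ∀ k, IsIntegral R (bo k) :=
    fun k => IsIntegral.sum _ fun i _ => (hint i).smul _
  have hbo_tr : ∀ i k, Algebra.trace K E₀ (b i * bo k) =
      if i = k then algebraMap R K G0.det else 0 := by
    intro i k
    rw [trace_mul_smul_sum (K := K) b G0 hG0 (fun i' => G0.adjugate i' k) i]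
    have h1 : ∑ d, G0 i d * G0.adjugate d k = (G0 * G0.adjugate) i k :=
      (Matrix.mul_apply ..).symm
    rw [h1, Matrix.mul_adjugate, Matrix.smul_apply, Matrix.one_apply, smul_eq_mul]
    split_ifs
    · rw [mul_one]
    · rw [mul_zero, map_zero]
  -- every integral element of `E`, scaled by `t * det G0`, lies in the lattice
  have hlat : ∀ y : E, IsIntegral R y →
      (t * G0.det) • y ∈ Submodule.span R (Set.range β) := by
    intro y hy
    have hcoord : ∀ j : Fin pb.dim, IsIntegral R (t • pb.basis.repr y j) := by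
      intro j
      have h1 : t • pb.basis.repr y j = Algebra.trace E₀ E (y * (c j * ι)) := by
        rw [repr_eq_trace pb y j, hcι, mul_smul_comm, trace_smul_base]
      rw [h1]
      exact Algebra.isIntegral_trace (hy.mul (hdual_int j))
    choose cc hcc using fun j : Fin pb.dim =>
      Fermat.Agent.H91.exists_det_smul_eq hint hn hG0 hdet0 (hcoord j)
    have h2 : (t * G0.det) • y = ∑ j, ∑ i, cc j i • β (i, j) := by
      have h3 : y = ∑ j, pb.basis.repr y j • pb.basis j := (pb.basis.sum_repr y).symm
      conv_lhs => rw [h3]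
      rw [Finset.smul_sum]
      refine Finset.sum_congr rfl fun j _ => ?_
      have h4 : (t * G0.det) • (pb.basis.repr y j • pb.basis j) =
          algebraMap E₀ E (G0.det • (t • pb.basis.repr y j)) * v ^ (j : ℕ) := by
        rw [PowerBasis.coe_basis, Algebra.smul_def (pb.basis.repr y j), smul_smul,
          mul_comm t G0.det, algebraMap_smul_base, smul_mul_assoc]
      rw [h4, hcc j, map_sum, Finset.sum_mul]
      refine Finset.sum_congr rfl fun i _ => ?_
      rw [algebraMap_smul_base, smul_mul_assoc]
    rw [h2]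
    exact Submodule.sum_mem _ fun j _ => Submodule.sum_mem _ fun i _ =>
      Submodule.smul_mem _ _ (Submodule.subset_span ⟨_, rfl⟩)
  -- the scaled dual family
  let δ : Fin n × Fin pb.dim → E :=
    fun a => (t * G0.det) • (algebraMap E₀ E (bo a.1) * (c a.2 * ι))
  let S : R := t * G0.det * (t * G0.det)
  have hS : ¬ h ∣ S := by
    intro hd
    rcases hh.dvd_or_dvd hd with h1 | h1 <;>
    · rcases hh.dvd_or_dvd h1 with h2 | h2
      · exact ht h2
      · exact hdet h2
  refine not_dvd_det_of_dual (K := K) hh β (Matrix.of G) hG δ (fun _ => S) (fun _ => hS) ?_ ?_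
  · rintro ⟨k, l⟩
    exact hlat _ (((hbo_int k).algebraMap).mul (hdual_int l))
  · rintro ⟨i, j⟩ ⟨k, l⟩
    have h1 : β (i, j) * δ (k, l) =
        (t * G0.det * t) • (algebraMap E₀ E (b i * bo k) * (v ^ (j : ℕ) * (c l / D))) := by
      simp only [δ, β]
      rw [hcι, map_mul]
      simp only [Algebra.smul_def, map_mul]
      ring
    rw [h1, trace_smul_base (E₀ := K), ← Algebra.trace_trace (S := E₀), ← Algebra.smul_def,
      map_smul, trace_pow_mul_dual pb j l]
    by_cases hjl : j = l
    · rw [if_pos hjl, smul_eq_mul, mul_one, hbo_tr]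
      by_cases hik : i = k
      · rw [if_pos hik, if_pos (by rw [hik, hjl]), Algebra.smul_def, ← map_mul]
        congr 1
        ring
      · rw [if_neg hik, if_neg (fun hh' => hik (congrArg Prod.fst hh')), smul_zero]
    · rw [if_neg hjl, smul_zero, map_zero, smul_zero,
        if_neg (fun hh' => hjl (congrArg Prod.snd hh'))]

end Main

end Fermat.Agent.H74.ES1KL
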