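import Fermat.Agent.H74.ES1KL.RootGB

/-!
# P-ES1 / ES1-KL, GB1 abstract core, split form (helper74)

Setting of `SimpleGB`.  Let `Q ∈ E₀[X]` be monic with coefficients in the localisation at `h` of
the integral closure, and assume that `Q` splits in `E` with simple roots `v i`, `i ∈ I`:
`Q = ∏_{i ∈ I} (X - v i)`.  Let `d ∈ E₀` with `d = ∏_{i ∈ I} ∏_{j ∈ I, j ≠ i} (v i - v j)`
(`± disc Q`) and `LocInt h d⁻¹`.  If `E = E₀(v i₀)` then a good basis of `E₀` at `h` gives a good
basis of `E` at `h` (`split_hasGoodBasisAt`).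
-/

set_option autoImplicit false
set_option linter.style.haveILetI false
set_option linter.unusedSectionVars false

noncomputable section

open Polynomial Matrix

namespace Fermat.Agent.H74.ES1KL

open Fermat.Agent.H3.KLKum

section Root

variable {R : Type*} [CommRing R] {E₀ E : Type*} [Field E₀] [Field E] [Algebra R E₀]
  [Algebra R E] [Algebra E₀ E] [IsScalarTower R E₀ E]

/-- A root of a monic polynomial with coefficients in the localised integral closure lies in the
localised integral closure. -/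
theorem locInt_of_root {h : R} (hh : Prime h) {Q : E₀[X]} (hQ : Q.Monic)
    (hQc : ∀ i, LocInt h (Q.coeff i)) {v : E} (hQv : aeval v Q = 0) : LocInt h v := by
  classical
  obtain ⟨s, hs, hsc⟩ := locInt_common hh (Finset.range (Q.natDegree + 1)) (fun i => Q.coeff i)
    (fun i _ => hQc i)
  have hsc' : ∀ i, IsIntegral R (s • Q.coeff i) := by
    intro i
    by_cases hi : i ∈ Finset.range (Q.natDegree + 1)
    · exact hsc i hi
    · rw [Finset.mem_range, not_lt] at hi
      rw [coeff_eq_zero_of_natDegree_lt (by omega), smul_zero]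
      exact isIntegral_zero
  set σ : E₀ := algebraMap R E₀ s with hσ
  set w : E := algebraMap E₀ E σ * v with hw
  set Qw : E₀[X] := scaleRoots Q σ with hQw
  have hQwm : Qw.Monic := (monic_scaleRoots_iff σ).mpr hQ
  have hQwc : ∀ i, IsIntegral R (Qw.coeff i) := isIntegral_coeff_scaleRoots hQ s hsc'
  have hQww : aeval w Qw = 0 := scaleRoots_aeval_eq_zero hQv
  have hQdeg : Q.natDegree ≠ 0 := by
    intro h0
    have h1 : Q = 1 := by
      rw [eq_C_of_natDegree_eq_zero h0, ← h0, coeff_natDegree, hQ.leadingCoeff, C_1]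
    rw [h1, map_one] at hQv
    exact one_ne_zero hQv
  have hwint : IsIntegral R w := by
    refine IsIntegral.of_aeval_monic_of_isIntegral_coeff (p := Qw.map (algebraMap E₀ E))
      (hQwm.map _) ?_ ?_ ?_
    · rw [(hQwm).natDegree_map, natDegree_scaleRoots]
      exact hQdeg
    · rw [eval_map_algebraMap, hQww]
      exact isIntegral_zero
    · intro i
      rw [coeff_map]
      exact (hQwc i).algebraMap
  refine ⟨s, hs, ?_⟩
  have : s • v = w := by
    rw [hw, hσ, Algebra.smul_def, IsScalarTower.algebraMap_apply R E₀ E]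
  rw [this]
  exact hwint

end Root

section Split

variable {E₀ E : Type*} [Field E₀] [Field E] [Algebra E₀ E]

/-- The derivative of a split polynomial at one of its roots. -/
theorem aeval_derivative_of_split {ι : Type*} [DecidableEq ι] (I : Finset ι) (v : ι → E)
    {Q : E₀[X]} (hsplit : Q.map (algebraMap E₀ E) = ∏ i ∈ I, (X - C (v i)))
    {i₀ : ι} (hi₀ : i₀ ∈ I) :
    aeval (v i₀) (derivative Q) = ∏ j ∈ I.erase i₀, (v i₀ - v j) := by
  rw [← eval_map_algebraMap, ← derivative_map, hsplit, derivative_prod_finset, eval_finsetSum]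
  rw [Finset.sum_eq_single i₀]
  · rw [derivative_sub, derivative_X, derivative_C, sub_zero, mul_one, eval_prod]
    refine Finset.prod_congr rfl fun j _ => ?_
    rw [eval_sub, eval_X, eval_C]
  · intro a ha hne
    rw [eval_mul, eval_prod]
    have hmem : i₀ ∈ I.erase a := Finset.mem_erase.mpr ⟨fun h => hne h.symm, hi₀⟩
    rw [Finset.prod_eq_zero hmem (by rw [eval_sub, eval_X, eval_C, sub_self]), zero_mul]
  · intro h
    exact absurd hi₀ h

end Split

section Main

variable {R : Type*} [CommRing R] [IsDomain R] [IsIntegrallyClosed R]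
variable {K : Type*} [Field K] [Algebra R K] [IsFractionRing R K]
variable {E₀ : Type*} [Field E₀] [Algebra K E₀] [Algebra R E₀] [IsScalarTower R K E₀]
  [FiniteDimensional K E₀]
variable {E : Type*} [Field E] [Algebra K E] [Algebra R E] [IsScalarTower R K E]
  [FiniteDimensional K E]
  [Algebra E₀ E] [IsScalarTower K E₀ E] [IsScalarTower R E₀ E]
variable [CharZero E₀]

/-- **Good basis of `E₀(v i₀)` for a polynomial which splits in `E` with unit discriminant.** -/
theorem split_hasGoodBasisAt {h : R} (hh : Prime h) (pb : PowerBasis E₀ E)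
    {ι : Type*} [DecidableEq ι] (I : Finset ι) (v : ι → E) (hinj : Set.InjOn v I)
    {Q : E₀[X]} (hQ : Q.Monic) (hQc : ∀ i, LocInt h (Q.coeff i))
    (hsplit : Q.map (algebraMap E₀ E) = ∏ i ∈ I, (X - C (v i)))
    {i₀ : ι} (hi₀ : i₀ ∈ I) (hgen : pb.gen = v i₀)
    (d : E₀) (hd : algebraMap E₀ E d = ∏ i ∈ I, ∏ j ∈ I.erase i, (v i - v j))
    (hdinv : LocInt h d⁻¹)
    (hgb : Fermat.Agent.H91.HasGoodBasisAt R K E₀ (Ideal.span {h})) :
    Fermat.Agent.H91.HasGoodBasisAt R K E (Ideal.span {h}) := by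
  have hroot : ∀ i ∈ I, aeval (v i) Q = 0 := by
    intro i hi
    rw [← eval_map_algebraMap, hsplit, eval_prod]
    exact Finset.prod_eq_zero hi (by rw [eval_sub, eval_X, eval_C, sub_self])
  have hvL : ∀ i ∈ I, LocInt h (v i) := fun i hi => locInt_of_root hh hQ hQc (hroot i hi)
  have hD : ∀ i ∈ I, aeval (v i) (derivative Q) = ∏ j ∈ I.erase i, (v i - v j) :=
    fun i hi => aeval_derivative_of_split I v hsplit hi
  have hD0 : ∀ i ∈ I, (∏ j ∈ I.erase i, (v i - v j)) ≠ 0 := by
    intro i hi
    rw [Finset.prod_ne_zero_iff]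
    intro j hj
    rw [Finset.mem_erase] at hj
    exact sub_ne_zero.mpr (fun hEq => hj.1 (hinj hj.2 hi hEq.symm))
  have hDL : ∀ i ∈ I, LocInt h (∏ j ∈ I.erase i, (v i - v j)) := by
    intro i hi
    refine Finset.prod_induction _ (LocInt h) (fun a b => LocInt.mul hh) (LocInt.one hh) ?_
    intro j hj
    exact LocInt.sub hh (hvL i hi) (hvL j (Finset.mem_of_mem_erase hj))
  have hd0 : algebraMap E₀ E d ≠ 0 := by
    rw [hd, Finset.prod_ne_zero_iff]
    exact hD0
  refine root_hasGoodBasisAt (K := K) hh pb hQ hQc (by rw [hgen]; exact hroot i₀ hi₀)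
    (by rw [hgen, hD i₀ hi₀]; exact hD0 i₀ hi₀) ?_ hgb
  rw [hgen, hD i₀ hi₀]
  have h1 : (∏ j ∈ I.erase i₀, (v i₀ - v j))⁻¹ =
      (∏ i ∈ I.erase i₀, ∏ j ∈ I.erase i, (v i - v j)) * algebraMap E₀ E d⁻¹ := by
    have h2 : algebraMap E₀ E d = (∏ j ∈ I.erase i₀, (v i₀ - v j)) *
        ∏ i ∈ I.erase i₀, ∏ j ∈ I.erase i, (v i - v j) := by
      rw [hd, ← Finset.mul_prod_erase I _ hi₀]
    rw [map_inv₀, h2, mul_inv]
    have h3 := hD0 i₀ hi₀
    have h4 : (∏ i ∈ I.erase i₀, ∏ j ∈ I.erase i, (v i - v j)) ≠ 0 := by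
      rw [Finset.prod_ne_zero_iff]
      exact fun i hi => hD0 i (Finset.mem_of_mem_erase hi)
    field_simp
  rw [h1]
  refine LocInt.mul hh ?_ (LocInt.map hdinv)
  refine Finset.prod_induction _ (LocInt h) (fun a b => LocInt.mul hh) (LocInt.one hh) ?_
  intro i hi
  exact hDL i (Finset.mem_of_mem_erase hi)

end Main

end Fermat.Agent.H74.ES1KL
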