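import Fermat.Agent.H74.ES1KL.Descent
import Fermat.Agent.H94.EsA.Final
import Fermat.Agent.H80.ES1.DiamondCore
import Fermat.Agent.H32.ES1.Model1A

/-!
# P-ES1 / ES1-KL, SYM1 (helper74): invariant polynomial expressions lie in the function field of
`X₀(N)`

`aeval_mem_full_of_invariant` : let `V i` (`i : ι`) be holomorphic functions on `ℍ` of moderate
growth with rational `q`-expansions `v i`, permuted by `Γ₀(N)` (`V i ∘ γ = V (σ γ i)`).  If
`P ∈ ℚ[X_i]` is invariant under the permutations `σ γ`, then `P(v) ∈ modularFunctionFieldFull N`.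

Proof: `P(V)` is a holomorphic `Γ₀(N)`-invariant function of moderate growth, hence its
`q`-expansion lies in `ℂ · F₀(N)` (`Fermat.Agent.H94.EsA.modularFunction`); descend from `ℂ` to
`ℚ` (`mem_of_coeffEmb_mem`).
-/

set_option autoImplicit false
set_option linter.unusedSectionVars false

noncomputable section

open UpperHalfPlane ModularCurve CongruenceSubgroup
open scoped MatrixGroups Manifold

namespace Fermat.Agent.H74.ES1KL

open Fermat.Agent.H44 Fermat.Agent.H94.EsA

/-- Moderate growth of polynomial expressions. -/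
theorem growth_aeval {ι : Type*} (V : ι → ℍ → ℂ) (hV : ∀ i, HasModerateGrowth (V i))
    (P : MvPolynomial ι ℚ) : HasModerateGrowth (MvPolynomial.aeval V P) := by
  induction P using MvPolynomial.induction_on with
  | C c =>
    rw [MvPolynomial.aeval_C, Fermat.Agent.H80.ES1.algebraMap_fun_eq]
    exact Fermat.Agent.H32.ES1M.growth_const _
  | add p q hp hq =>
    rw [map_add]
    exact Fermat.Agent.H32.ES1M.growth_add hp hq
  | mul_X p i hp =>
    rw [map_mul, MvPolynomial.aeval_X]
    exact Fermat.Agent.H32.ES1M.growth_mul hp (hV i)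

/-- **SYM (analytic form).**  Invariant polynomial expressions in functions permuted by `Γ₀(N)`
have their `q`-expansion in the function field of `X₀(N)` over `ℚ`. -/
theorem aeval_mem_full_of_invariant (N : ℕ) [NeZero N] {ι : Type*} (V : ι → ℍ → ℂ)
    (v : ι → LaurentSeries ℚ)
    (hrel : ∀ i, LaurentRel (V i) (coeffEmb ℂ (v i)))
    (hgrow : ∀ i, HasModerateGrowth (V i))
    (σ : ↥(Gamma0 N) → ι → ι)
    (hσ : ∀ (γ : ↥(Gamma0 N)) (i : ι) (z : ℍ), V i ((γ : SL(2, ℤ)) • z) = V (σ γ i) z)
    (P : MvPolynomial ι ℚ) (hP : ∀ γ, MvPolynomial.rename (σ γ) P = P) :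
    MvPolynomial.aeval v P ∈ modularFunctionFieldFull N := by
  set h : ℍ → ℂ := MvPolynomial.aeval V P with hh
  have hLR : LaurentRel h (MvPolynomial.aeval (fun i => coeffEmb ℂ (v i)) P) :=
    Fermat.Agent.H80.ES1.laurentRel_aeval V _ hrel P
  have hmd : MDiff h := hLR.mdifferentiable
  have hinv : ∀ (γ : ↥(Gamma0 N)) (z : ℍ), h ((γ : SL(2, ℤ)) • z) = h z := by
    intro γ z
    have h1 : Fermat.Agent.H80.ES1.precompHom (fun w : ℍ => (γ : SL(2, ℤ)) • w) h
        = MvPolynomial.aeval (fun i => V (σ γ i)) P := by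
      rw [hh, MvPolynomial.comp_aeval_apply]
      have e : (fun i => Fermat.Agent.H80.ES1.precompHom (fun w : ℍ => (γ : SL(2, ℤ)) • w) (V i))
          = fun i => V (σ γ i) := by
        funext i
        funext w
        exact hσ γ i w
      rw [e]
    have h2 : MvPolynomial.aeval (fun i => V (σ γ i)) P = h := by
      have h3 := MvPolynomial.aeval_rename (σ γ) V P
      rw [hP γ] at h3
      rw [hh, h3]
      rfl
    have h4 := congrFun (h1.trans h2) z
    exact h4
  have hg : HasModerateGrowth h := growth_aeval V hgrow P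
  obtain ⟨x, hx⟩ := Fermat.Agent.H94.EsA.modularFunction N h hmd hinv hg
  have hxeq : (x : LaurentSeries ℂ) = MvPolynomial.aeval (fun i => coeffEmb ℂ (v i)) P :=
    hx.unique_right hLR
  have hemb : coeffEmb ℂ (MvPolynomial.aeval v P)
      = MvPolynomial.aeval (fun i => coeffEmb ℂ (v i)) P := by
    have := MvPolynomial.comp_aeval_apply (f := v) (Fermat.Agent.H80.ES1.coeffEmbA ℂ) P
    rw [Fermat.Agent.H80.ES1.coeffEmbA_apply] at this
    rw [this]
    rfl
  apply mem_of_coeffEmb_mem (L := ℂ)
  rw [hemb, ← hxeq]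
  exact x.2

end Fermat.Agent.H74.ES1KL
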