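import Fermat.Agent.H74.ES1KL.SymAnalytic
import Fermat.Agent.H29.ES1.GenInterfaces
import Fermat.Agent.H16.ES1GenA

/-!
# P-ES1 / ES1-KL, SYM1 (helper74): symmetric expressions in the generators `v_a` of `F₁(M)` lie in
the function field `F₀(M)` of `X₀(M)`

* `UnitsModSign M = (ℤ/M)ˣ / ± 1`, `vq M : UnitsModSign M → ℚ((q))` the generators `v_a = v_{-a}`.
* `aeval_vq_mem_full` : if `P ∈ ℚ[X_g : g ∈ (ℤ/M)ˣ/±1]` is invariant under the translations
  `g ↦ g₀ g`, then `P(v) ∈ modularFunctionFieldFull M`.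
* `vq_injective`, `leadingCoeff_vq_sub` : the `v_g` are distinct, and their differences have
  leading coefficient `± 1` (from `GenSepStatement`).
-/

set_option autoImplicit false
set_option linter.unusedSectionVars false

noncomputable section

open UpperHalfPlane ModularCurve CongruenceSubgroup
open scoped MatrixGroups Manifold

namespace Fermat.Agent.H74.ES1KL

open Fermat.Agent.H44 Fermat.Agent.H94.EsA Fermat.Agent.H29.ES1

variable (M : ℕ) [NeZero M]

/-- `(ℤ/M)ˣ / ± 1`. -/
abbrev UnitsModSign : Type := (ZMod M)ˣ ⧸ Subgroup.zpowers (-1 : (ZMod M)ˣ)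

variable {M}

theorem mem_zpowers_neg_one {u : (ZMod M)ˣ} :
    u ∈ Subgroup.zpowers (-1 : (ZMod M)ˣ) ↔ u = 1 ∨ u = -1 := by
  constructor
  · rintro ⟨k, rfl⟩
    rcases Int.even_or_odd k with hk | hk
    · left
      exact hk.neg_one_zpow
    · right
      exact hk.neg_one_zpow
  · rintro (rfl | rfl)
    · exact one_mem _
    · exact Subgroup.mem_zpowers _

theorem unitsModSign_mk_eq_iff {a b : (ZMod M)ˣ} :
    (QuotientGroup.mk a : UnitsModSign M) = QuotientGroup.mk b ↔ b = a ∨ b = -a := by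
  rw [QuotientGroup.eq, mem_zpowers_neg_one]
  constructor
  · rintro (h | h)
    · left
      exact (inv_mul_eq_one.mp h).symm
    · right
      have : b = a * (-1) := by rw [← h, mul_inv_cancel_left]
      rw [this, mul_neg, mul_one]
  · rintro (rfl | rfl)
    · left
      exact inv_mul_cancel _
    · right
      rw [mul_neg, inv_mul_cancel]

theorem vGen_eq_of_rel {a b : (ZMod M)ˣ} (h : b = a ∨ b = -a) :
    vGen M (a : ZMod M) = vGen M (b : ZMod M) := by
  rcases h with rfl | rfl
  · rfl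
  · rw [Units.val_neg, vGen_neg]

variable (M)

/-- The generators `v_g`, `g ∈ (ℤ/M)ˣ / ± 1`. -/
def vq (g : UnitsModSign M) : LaurentSeries ℚ :=
  Quotient.liftOn' g (fun a : (ZMod M)ˣ => vGen M (a : ZMod M)) (by
    intro a b hab
    rw [QuotientGroup.leftRel_apply, mem_zpowers_neg_one] at hab
    apply vGen_eq_of_rel
    rcases hab with h | h
    · left
      exact (inv_mul_eq_one.mp h).symm
    · right
      have : b = a * (-1) := by rw [← h, mul_inv_cancel_left]
      rw [this, mul_neg, mul_one])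

@[simp] theorem vq_mk (a : (ZMod M)ˣ) :
    vq M (QuotientGroup.mk a) = vGen M (a : ZMod M) := rfl

theorem unit_val_ne_zero (hM : 3 ≤ M) (a : (ZMod M)ˣ) : (a : ZMod M) ≠ 0 := by
  have : Fact (1 < M) := ⟨by omega⟩
  exact a.ne_zero

theorem unit_val_ne_neg (hM : 3 ≤ M) (a : (ZMod M)ˣ) : (a : ZMod M) ≠ -(a : ZMod M) := by
  intro h
  have h2 : (2 : ZMod M) * (a : ZMod M) = 0 := by
    rw [two_mul]
    nth_rewrite 1 [h]
    exact neg_add_cancel _
  have h3 : (2 : ZMod M) = 0 := by
    have := congrArg (fun t => t * ((a⁻¹ : (ZMod M)ˣ) : ZMod M)) h2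
    simpa [mul_assoc] using this
  have h4 : ((2 : ℕ) : ZMod M) = 0 := by exact_mod_cast h3
  rw [ZMod.natCast_eq_zero_iff] at h4
  have := Nat.le_of_dvd (by norm_num) h4
  omega

theorem VFun_eq_of_rel (hV : VFunStatement) (hM : 3 ≤ M) {a b : (ZMod M)ˣ}
    (h : b = a ∨ b = -a) : VFun M (a : ZMod M) = VFun M (b : ZMod M) := by
  have ha := (hV M (a : ZMod M) (unit_val_ne_zero M hM a)).2.1
  have hb := (hV M (b : ZMod M) (unit_val_ne_zero M hM b)).2.1
  rw [← vGen_eq_of_rel h] at hb
  exact ha.unique_left hb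

/-- The holomorphic functions `V_g`, `g ∈ (ℤ/M)ˣ / ± 1`. -/
def Vq (hV : VFunStatement) (hM : 3 ≤ M) (g : UnitsModSign M) : ℍ → ℂ :=
  Quotient.liftOn' g (fun a : (ZMod M)ˣ => VFun M (a : ZMod M)) (by
    intro a b hab
    rw [QuotientGroup.leftRel_apply, mem_zpowers_neg_one] at hab
    apply VFun_eq_of_rel M hV hM
    rcases hab with h | h
    · left
      exact (inv_mul_eq_one.mp h).symm
    · right
      have : b = a * (-1) := by rw [← h, mul_inv_cancel_left]
      rw [this, mul_neg, mul_one])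

@[simp] theorem Vq_mk (hV : VFunStatement) (hM : 3 ≤ M) (a : (ZMod M)ˣ) :
    Vq M hV hM (QuotientGroup.mk a) = VFun M (a : ZMod M) := rfl

/-- The upper left entry of an element of `Γ₀(M)` is a unit modulo `M`. -/
theorem exists_unit_upperLeft (γ : SL(2, ℤ)) (hγ : γ ∈ Gamma0 M) :
    ∃ u : (ZMod M)ˣ, (u : ZMod M) = (((γ : Matrix (Fin 2) (Fin 2) ℤ) 0 0 : ℤ) : ZMod M) := by
  have hdet := γ.2
  rw [Matrix.det_fin_two] at hdet
  have hc : (((γ : Matrix (Fin 2) (Fin 2) ℤ) 1 0 : ℤ) : ZMod M) = 0 := Gamma0_mem.mp hγ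
  have h1 : (((γ : Matrix (Fin 2) (Fin 2) ℤ) 0 0 : ℤ) : ZMod M)
      * (((γ : Matrix (Fin 2) (Fin 2) ℤ) 1 1 : ℤ) : ZMod M) = 1 := by
    have := congrArg (Int.cast : ℤ → ZMod M) hdet
    push_cast at this
    rw [hc, mul_zero, sub_zero] at this
    exact this
  exact ⟨Units.mkOfMulEqOne _ _ h1, rfl⟩

/-- The unit attached to an element of `Γ₀(M)`. -/
def upperLeftUnit (γ : ↥(Gamma0 M)) : (ZMod M)ˣ :=
  (exists_unit_upperLeft M (γ : SL(2, ℤ)) γ.2).choose

theorem upperLeftUnit_spec (γ : ↥(Gamma0 M)) :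
    ((upperLeftUnit M γ : (ZMod M)ˣ) : ZMod M)
      = ((((γ : SL(2, ℤ)) : Matrix (Fin 2) (Fin 2) ℤ) 0 0 : ℤ) : ZMod M) :=
  (exists_unit_upperLeft M (γ : SL(2, ℤ)) γ.2).choose_spec

/-- **SYM1.**  Translation-invariant polynomial expressions in the `v_g` lie in the function
field of `X₀(M)` over `ℚ`. -/
theorem aeval_vq_mem_full (hV : VFunStatement) (hM : 3 ≤ M)
    (P : MvPolynomial (UnitsModSign M) ℚ)
    (hP : ∀ g₀ : UnitsModSign M, MvPolynomial.rename (fun g => g₀ * g) P = P) :
    MvPolynomial.aeval (vq M) P ∈ modularFunctionFieldFull M := by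
  refine aeval_mem_full_of_invariant M (Vq M hV hM) (vq M) ?_ ?_
    (fun γ g => (QuotientGroup.mk (upperLeftUnit M γ) : UnitsModSign M) * g) ?_ P
    (fun γ => hP _)
  · intro g
    induction g using QuotientGroup.induction_on with
    | H a => exact (hV M (a : ZMod M) (unit_val_ne_zero M hM a)).2.1
  · intro g
    induction g using QuotientGroup.induction_on with
    | H a => exact (hV M (a : ZMod M) (unit_val_ne_zero M hM a)).2.2.2
  · intro γ g z
    induction g using QuotientGroup.induction_on with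
    | H a =>
      show VFun M (a : ZMod M) ((γ : SL(2, ℤ)) • z)
        = VFun M ((upperLeftUnit M γ * a : (ZMod M)ˣ) : ZMod M) z
      rw [(hV M (a : ZMod M) (unit_val_ne_zero M hM a)).2.2.1 (γ : SL(2, ℤ)) γ.2 z,
        Units.val_mul, upperLeftUnit_spec]

/-- The differences of distinct generators have leading coefficient `± 1`. -/
theorem leadingCoeff_vq_sub (hS : GenSepStatement) (hM : 3 ≤ M) {g g' : UnitsModSign M}
    (hne : g ≠ g') :
    (vq M g - vq M g').leadingCoeff = 1 ∨ (vq M g - vq M g').leadingCoeff = -1 := by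
  induction g using QuotientGroup.induction_on with
  | H a =>
  induction g' using QuotientGroup.induction_on with
  | H b =>
  have hab : ¬ (b = a ∨ b = -a) := fun h => hne (unitsModSign_mk_eq_iff.mpr h)
  push Not at hab
  have h1 : (a : ZMod M) ≠ (b : ZMod M) := fun h => hab.1 (Units.ext h).symm
  have h2 : (a : ZMod M) ≠ -(b : ZMod M) := by
    intro h
    apply hab.2
    apply Units.ext
    rw [Units.val_neg, h, neg_neg]
  rcases hS M (a : ZMod M) (b : ZMod M) (unit_val_ne_zero M hM a) (unit_val_ne_zero M hM b)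
    (unit_val_ne_neg M hM a) (unit_val_ne_neg M hM b) h1 h2 with h | h
  · left
    exact h.2
  · right
    have e : vq M (QuotientGroup.mk a) - vq M (QuotientGroup.mk b)
        = -(vGen M (b : ZMod M) - vGen M (a : ZMod M)) := by
      rw [vq_mk, vq_mk, neg_sub]
    rw [e, HahnSeries.leadingCoeff_neg, h.2]

/-- The generators `v_g` are pairwise distinct. -/
theorem vq_injective (hS : GenSepStatement) (hM : 3 ≤ M) : Function.Injective (vq M) := by
  intro g g' h
  by_contra hne
  have h1 := leadingCoeff_vq_sub M hS hM hne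
  rw [h, sub_self, HahnSeries.leadingCoeff_zero] at h1
  rcases h1 with h1 | h1
  · exact zero_ne_one h1
  · have : (0 : ℚ) ≠ -1 := by norm_num
    exact this h1

end Fermat.Agent.H74.ES1KL
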