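import Fermat.Agent.H74.ES1KL.GB1
import Fermat.Agent.H74.ES1KL.SimpleGBChart

/-!
# P-ES1 / ES1-KL (helper74): the generic tower step for good bases of level fields

`towerStep` : level fields `F00 ≤ F0 ≤ F1 = F0(v i : i ∈ ι)` inside `ℚ((q))`, `j ∈ F00`.  Assume
that the polynomial `∏ (X - v i)` has coefficients in `F00` with integral `q`-expansions, that the
`v i` are distinct and that the discriminant `∏_i ∏_{j ≠ i} (v i - v j) ∈ F00` has an integral
`q`-expansion with a coefficient `± 1`.  Then the `q`-expansion principle for `F00` and a good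
basis of `F0` (both in the chart `j`, at `ℓ`) give a good basis of `F1`.

`modelGoodBasis_F1` is the case `F00 = F0 = F₀(M)`, `F1 = F₁(M)`.
-/

set_option autoImplicit false
set_option linter.style.haveILetI false
set_option linter.unusedSectionVars false

noncomputable section

open Polynomial ModularCurve

namespace Fermat.Agent.H74.ES1KL

open Fermat.Agent.H91.ES1KL Fermat.Agent.H22.KL

section Gen

variable (K₁ : Type) [Field K₁] [Algebra ℚ K₁]
variable {F F' : IntermediateField ℚ (LaurentSeries ℚ)}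

/-- The inclusion `K₁ · F ⊆ K₁ · F'` for `F ≤ F'`. -/
def inclGen (h : F ≤ F') : ModelFieldGen K₁ F →+* ModelFieldGen K₁ F' where
  toFun y := ⟨y.1, laurentBaseChange_mono' K₁ h y.2⟩
  map_one' := rfl
  map_mul' _ _ := rfl
  map_zero' := rfl
  map_add' _ _ := rfl

theorem inclGen_mk (h : F ≤ F') (a : LaurentSeries K₁) (ha : a ∈ laurentBaseChange K₁ F) :
    inclGen K₁ h ⟨a, ha⟩ = ⟨a, laurentBaseChange_mono' K₁ h ha⟩ := rfl

theorem coe_inclGen (h : F ≤ F') (y : ModelFieldGen K₁ F) :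
    ((inclGen K₁ h y : ModelFieldGen K₁ F') : LaurentSeries K₁) = (y : LaurentSeries K₁) := by
  rcases y with ⟨y, hy⟩
  rfl

/-- A rational series of `F` as an element of `K₁ · F`. -/
def ratE (F : IntermediateField ℚ (LaurentSeries ℚ)) (f : LaurentSeries ℚ) (hf : f ∈ F) :
    ModelFieldGen K₁ F :=
  ⟨coeffEmb K₁ f, coeffEmb_mem_laurentBaseChange K₁ hf⟩

theorem coe_ratE (F : IntermediateField ℚ (LaurentSeries ℚ)) (f : LaurentSeries ℚ)
    (hf : f ∈ F) : ((ratE K₁ F f hf : ModelFieldGen K₁ F) : LaurentSeries K₁) = coeffEmb K₁ f :=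
  rfl

theorem inclGen_ratE (h : F ≤ F') (f : LaurentSeries ℚ) (hf : f ∈ F) :
    inclGen K₁ h (ratE K₁ F f hf) = ratE K₁ F' f (h hf) := rfl

/-- `K₁ · F1` is generated by `K₁ · F0` and the `v i` if `F1 = F0(v i)`. -/
theorem mem_subfield_of_gensGen {F0 F1 : IntermediateField ℚ (LaurentSeries ℚ)} (h01 : F0 ≤ F1)
    {ι : Type*} (v : ι → LaurentSeries ℚ)
    (hF1 : F1 = IntermediateField.adjoin ℚ ((F0 : Set (LaurentSeries ℚ)) ∪ Set.range v))
    (hv : ∀ i, v i ∈ F1) (S : Subfield (ModelFieldGen K₁ F1))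
    (h0 : ∀ y : ModelFieldGen K₁ F0, inclGen K₁ h01 y ∈ S)
    (h1 : ∀ i, ratE K₁ F1 (v i) (hv i) ∈ S) (y : ModelFieldGen K₁ F1) : y ∈ S := by
  -- rational elements
  have key : ∀ f : LaurentSeries ℚ, f ∈ F1 →
      ∀ h : coeffEmb K₁ f ∈ laurentBaseChange K₁ F1,
        (⟨coeffEmb K₁ f, h⟩ : ModelFieldGen K₁ F1) ∈ S := by
    intro f hf
    have hf' : f ∈ IntermediateField.adjoin ℚ ((F0 : Set (LaurentSeries ℚ)) ∪ Set.range v) := by
      rw [← hF1]; exact hf
    have hback : ∀ z, z ∈ IntermediateField.adjoin ℚ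
        ((F0 : Set (LaurentSeries ℚ)) ∪ Set.range v) → z ∈ F1 := by
      intro z hz
      rw [hF1]; exact hz
    induction hf' using IntermediateField.adjoin_induction with
    | mem x hx =>
      intro h
      rcases hx with hx | hx
      · have := h0 ⟨coeffEmb K₁ x, coeffEmb_mem_laurentBaseChange K₁ hx⟩
        rw [inclGen_mk] at this
        exact this
      · obtain ⟨i, rfl⟩ := hx
        exact h1 i
    | algebraMap r =>
      intro h
      have hr0 : algebraMap ℚ (LaurentSeries ℚ) r ∈ F0 := F0.algebraMap_mem r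
      have := h0 ⟨coeffEmb K₁ (algebraMap ℚ (LaurentSeries ℚ) r),
        coeffEmb_mem_laurentBaseChange K₁ hr0⟩
      rw [inclGen_mk] at this
      exact this
    | add x y hx' hy' hx hy =>
      intro h
      have hxm : coeffEmb K₁ x ∈ laurentBaseChange K₁ F1 :=
        coeffEmb_mem_laurentBaseChange K₁ (hback x hx')
      have hym : coeffEmb K₁ y ∈ laurentBaseChange K₁ F1 :=
        coeffEmb_mem_laurentBaseChange K₁ (hback y hy')
      exact mk_mem_of_eq _ S (map_add (coeffEmb K₁) x y) (add_mem hxm hym)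
        (mk_add_mem _ S hxm hym (hx (hback x hx') hxm) (hy (hback y hy') hym)) h
    | inv x hx' hx =>
      intro h
      have hxm : coeffEmb K₁ x ∈ laurentBaseChange K₁ F1 :=
        coeffEmb_mem_laurentBaseChange K₁ (hback x hx')
      exact mk_mem_of_eq _ S (map_inv₀ (coeffEmb K₁) x) (inv_mem hxm)
        (mk_inv_mem _ S hxm (hx (hback x hx') hxm)) h
    | mul x y hx' hy' hx hy =>
      intro h
      have hxm : coeffEmb K₁ x ∈ laurentBaseChange K₁ F1 :=
        coeffEmb_mem_laurentBaseChange K₁ (hback x hx')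
      have hym : coeffEmb K₁ y ∈ laurentBaseChange K₁ F1 :=
        coeffEmb_mem_laurentBaseChange K₁ (hback y hy')
      exact mk_mem_of_eq _ S (map_mul (coeffEmb K₁) x y) (mul_mem hxm hym)
        (mk_mul_mem _ S hxm hym (hx (hback x hx') hxm) (hy (hback y hy') hym)) h
  -- all elements
  have key2 : ∀ s : LaurentSeries K₁, s ∈ laurentBaseChange K₁ F1 →
      ∀ h : s ∈ laurentBaseChange K₁ F1, (⟨s, h⟩ : ModelFieldGen K₁ F1) ∈ S := by
    intro s hs
    rw [laurentBaseChange] at hs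
    induction hs using IntermediateField.adjoin_induction with
    | mem x hx =>
      intro h
      obtain ⟨f, hf, rfl⟩ := hx
      exact key f hf h
    | algebraMap r =>
      intro h
      have hr0 : algebraMap K₁ (LaurentSeries K₁) r ∈ laurentBaseChange K₁ F0 :=
        (laurentBaseChange K₁ F0).algebraMap_mem r
      have := h0 ⟨algebraMap K₁ (LaurentSeries K₁) r, hr0⟩
      rw [inclGen_mk] at this
      exact this
    | add x y hx' hy' hx hy =>
      intro h
      have hxm : x ∈ laurentBaseChange K₁ F1 := by rw [laurentBaseChange]; exact hx'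
      have hym : y ∈ laurentBaseChange K₁ F1 := by rw [laurentBaseChange]; exact hy'
      exact mk_add_mem _ S hxm hym (hx hxm) (hy hym)
    | inv x hx' hx =>
      intro h
      have hxm : x ∈ laurentBaseChange K₁ F1 := by rw [laurentBaseChange]; exact hx'
      exact mk_inv_mem _ S hxm (hx hxm)
    | mul x y hx' hy' hx hy =>
      intro h
      have hxm : x ∈ laurentBaseChange K₁ F1 := by rw [laurentBaseChange]; exact hx'
      have hym : y ∈ laurentBaseChange K₁ F1 := by rw [laurentBaseChange]; exact hy'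
      exact mk_mul_mem _ S hxm hym (hx hxm) (hy hym)
  rcases y with ⟨y, hy⟩
  exact key2 y hy hy

/-- The coefficients of `∏ (X - v i)` over `K₁` come from the rational ones. -/
theorem coe_coeff_splitGen (F1 : IntermediateField ℚ (LaurentSeries ℚ)) {ι : Type*} [Fintype ι]
    (v : ι → LaurentSeries ℚ) (hv : ∀ i, v i ∈ F1) (k : ℕ) :
    (((∏ i : ι, (X - C (ratE K₁ F1 (v i) (hv i))) : (ModelFieldGen K₁ F1)[X]).coeff k :
        ModelFieldGen K₁ F1) : LaurentSeries K₁)
      = coeffEmb K₁ ((∏ i : ι, (X - C (v i)) : (LaurentSeries ℚ)[X]).coeff k) := by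
  have h1 : (∏ i : ι, (X - C (ratE K₁ F1 (v i) (hv i))) : (ModelFieldGen K₁ F1)[X]).map
        ((laurentBaseChange K₁ F1).val : ModelFieldGen K₁ F1 →+* LaurentSeries K₁)
      = (∏ i : ι, (X - C (v i)) : (LaurentSeries ℚ)[X]).map (coeffEmb K₁) := by
    rw [Polynomial.map_prod, Polynomial.map_prod]
    refine Finset.prod_congr rfl fun g _ => ?_
    rw [Polynomial.map_sub, Polynomial.map_X, Polynomial.map_C, Polynomial.map_sub,
      Polynomial.map_X, Polynomial.map_C]
    rfl
  have h2 := congrArg (fun p => p.coeff k) h1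
  simp only [Polynomial.coeff_map] at h2
  exact h2

/-- The discriminant over `K₁` comes from the rational one. -/
theorem coe_discGen (F1 : IntermediateField ℚ (LaurentSeries ℚ)) {ι : Type*} [Fintype ι]
    [DecidableEq ι] (v : ι → LaurentSeries ℚ) (hv : ∀ i, v i ∈ F1) :
    (((∏ i : ι, ∏ j ∈ (Finset.univ : Finset ι).erase i,
        (ratE K₁ F1 (v i) (hv i) - ratE K₁ F1 (v j) (hv j)) : ModelFieldGen K₁ F1) :
        ModelFieldGen K₁ F1) : LaurentSeries K₁)
      = coeffEmb K₁ (∏ i : ι, ∏ j ∈ (Finset.univ : Finset ι).erase i, (v i - v j)) := by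
  have h1 : ∀ z : ModelFieldGen K₁ F1, (z : LaurentSeries K₁)
      = ((laurentBaseChange K₁ F1).val : ModelFieldGen K₁ F1 →+* LaurentSeries K₁) z :=
    fun _ => rfl
  rw [h1, map_prod, map_prod]
  refine Finset.prod_congr rfl fun g _ => ?_
  rw [map_prod, map_prod]
  refine Finset.prod_congr rfl fun g' _ => ?_
  rw [map_sub, map_sub]
  rfl

end Gen

section Main

set_option maxHeartbeats 1000000 in
/-- **The generic tower step for good bases of level fields** (chart `j`). -/
theorem towerStep (F00 F0 F1 : IntermediateField ℚ (LaurentSeries ℚ)) (h00 : F00 ≤ F0)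
    (hx0 : jq ∈ F00) {ι : Type} [Fintype ι] [DecidableEq ι] (v : ι → LaurentSeries ℚ)
    (hF1 : F1 = IntermediateField.adjoin ℚ ((F0 : Set (LaurentSeries ℚ)) ∪ Set.range v))
    (hvinj : Function.Injective v)
    (hcoef : ∀ k : ℕ, (∏ i : ι, (X - C (v i)) : (LaurentSeries ℚ)[X]).coeff k ∈ F00)
    (hcint : ∀ k : ℕ, (∏ i : ι, (X - C (v i)) : (LaurentSeries ℚ)[X]).coeff k ∈ intSeries)
    (hdmem : (∏ i : ι, ∏ j ∈ (Finset.univ : Finset ι).erase i, (v i - v j)) ∈ F00)
    (hdint : (∏ i : ι, ∏ j ∈ (Finset.univ : Finset ι).erase i, (v i - v j)) ∈ intSeries)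
    (hdunit : ∃ n : ℤ,
      (∏ i : ι, ∏ j ∈ (Finset.univ : Finset ι).erase i, (v i - v j)).coeff n = 1 ∨
      (∏ i : ι, ∏ j ∈ (Finset.univ : Finset ι).erase i, (v i - v j)).coeff n = -1)
    (ℓ : ℕ) (hQE : ModelQExpGen F00 ℓ jq) (hGB : ModelGoodBasisGen F0 ℓ jq) :
    ModelGoodBasisGen F1 ℓ jq := by
  classical
  intro K₁ _ _ _ A₀ _ _ _ _ _ iA iT hu ϖ hϖ x hx
  have h01 : F0 ≤ F1 := by
    intro z hz
    rw [hF1]
    exact IntermediateField.subset_adjoin ℚ _ (Or.inl hz)
  have hv : ∀ i, v i ∈ F1 := by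
    intro i
    rw [hF1]
    exact IntermediateField.subset_adjoin ℚ _ (Or.inr ⟨i, rfl⟩)
  -- the algebra structures
  letI algA00 : Algebra A₀ (ModelFieldGen K₁ F00) :=
    ((algebraMap K₁ (ModelFieldGen K₁ F00)).comp (algebraMap A₀ K₁)).toAlgebra
  haveI tow00 : IsScalarTower A₀ K₁ (ModelFieldGen K₁ F00) :=
    IsScalarTower.of_algebraMap_eq (fun _ => rfl)
  letI algA0 : Algebra A₀ (ModelFieldGen K₁ F0) :=
    ((algebraMap K₁ (ModelFieldGen K₁ F0)).comp (algebraMap A₀ K₁)).toAlgebra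
  haveI tow0 : IsScalarTower A₀ K₁ (ModelFieldGen K₁ F0) :=
    IsScalarTower.of_algebraMap_eq (fun _ => rfl)
  letI alg000 : Algebra (ModelFieldGen K₁ F00) (ModelFieldGen K₁ F0) :=
    (inclGen K₁ h00).toAlgebra
  have halg000 : ∀ y : ModelFieldGen K₁ F00,
      algebraMap (ModelFieldGen K₁ F00) (ModelFieldGen K₁ F0) y = inclGen K₁ h00 y :=
    fun _ => rfl
  letI alg01 : Algebra (ModelFieldGen K₁ F0) (ModelFieldGen K₁ F1) := (inclGen K₁ h01).toAlgebra
  have halg01 : ∀ y : ModelFieldGen K₁ F0,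
      algebraMap (ModelFieldGen K₁ F0) (ModelFieldGen K₁ F1) y = inclGen K₁ h01 y :=
    fun _ => rfl
  haveI tow000 : IsScalarTower A₀ (ModelFieldGen K₁ F00) (ModelFieldGen K₁ F0) :=
    IsScalarTower.of_algebraMap_eq (fun a => by
      apply Subtype.ext
      rw [IsScalarTower.algebraMap_apply A₀ K₁ (ModelFieldGen K₁ F0), halg000, coe_inclGen,
        IsScalarTower.algebraMap_apply A₀ K₁ (ModelFieldGen K₁ F00),
        coe_algebraMap_sub, coe_algebraMap_sub])
  haveI tow01 : IsScalarTower A₀ (ModelFieldGen K₁ F0) (ModelFieldGen K₁ F1) :=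
    IsScalarTower.of_algebraMap_eq (fun a => by
      apply Subtype.ext
      rw [IsScalarTower.algebraMap_apply A₀ K₁ (ModelFieldGen K₁ F1), halg01, coe_inclGen,
        IsScalarTower.algebraMap_apply A₀ K₁ (ModelFieldGen K₁ F0),
        coe_algebraMap_sub, coe_algebraMap_sub])
  haveI hc0 : CharZero K₁ := algebraRat.charZero K₁
  haveI hc1 : CharZero (ModelFieldGen K₁ F0) :=
    charZero_of_injective_algebraMap (algebraMap K₁ (ModelFieldGen K₁ F0)).injective
  have hinj : Function.Injective (algebraMap A₀ (ModelFieldGen K₁ F0)) := by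
    rw [IsScalarTower.algebraMap_eq A₀ K₁ (ModelFieldGen K₁ F0)]
    exact (algebraMap K₁ (ModelFieldGen K₁ F0)).injective.comp (IsFractionRing.injective A₀ K₁)
  -- the coordinates
  set x00 : ModelFieldGen K₁ F00 := ratE K₁ F00 jq hx0 with hx00def
  set x0 : ModelFieldGen K₁ F0 := ratE K₁ F0 jq (h00 hx0) with hx0def
  have hx00 : (x00 : LaurentSeries K₁) = coeffEmb K₁ jq := rfl
  have hx0' : (x0 : LaurentSeries K₁) = coeffEmb K₁ jq := rfl
  have hx000 : algebraMap (ModelFieldGen K₁ F00) (ModelFieldGen K₁ F0) x00 = x0 := by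
    rw [halg000]
    rfl
  have hxx0 : x = algebraMap (ModelFieldGen K₁ F0) (ModelFieldGen K₁ F1) x0 := by
    apply Subtype.ext
    rw [halg01, coe_inclGen, hx, hx0']
  have hx00tr : Transcendental A₀ x00 := modelTranscendentalGen_jq F00 K₁ A₀ x00 hx00
  have hx0tr : Transcendental A₀ x0 := modelTranscendentalGen_jq F0 K₁ A₀ x0 hx0'
  -- the inputs
  have hGB0 : GoodBasis A₀ (ModelFieldGen K₁ F0) ϖ x0 := hGB K₁ A₀ hu ϖ hϖ x0 hx0'
  have hQE00 := hQE K₁ A₀ hu ϖ hϖ x00 hx00
  have hone : ∀ n : ℤ, ((1 : ModelFieldGen K₁ F00) : LaurentSeries K₁).coeff n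
      ∈ (algebraMap A₀ K₁).range := fun n => by
    rw [IntermediateField.coe_one]
    exact one_coeff_mem_range K₁ A₀ n
  have hpush : ∀ y : ModelFieldGen K₁ F00, y ∈ gaussClosure A₀ (ModelFieldGen K₁ F00) ϖ x00 →
      inclGen K₁ h00 y ∈ gaussClosure A₀ (ModelFieldGen K₁ F0) ϖ x0 := by
    intro y hy
    have := algebraMap_mem_gaussClosure (E := ModelFieldGen K₁ F0) hx00tr hy
    rw [hx000, halg000] at this
    exact this
  -- the polynomial
  set T : (ModelFieldGen K₁ F1)[X] := ∏ i : ι, (X - C (ratE K₁ F1 (v i) (hv i))) with hT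
  have hTm : T.Monic := monic_prod_of_monic _ _ (fun g _ => monic_X_sub_C _)
  have hcoefE : ∀ k : ℕ, T.coeff k
      = algebraMap (ModelFieldGen K₁ F0) (ModelFieldGen K₁ F1)
        (ratE K₁ F0 ((∏ i : ι, (X - C (v i)) : (LaurentSeries ℚ)[X]).coeff k)
          (h00 (hcoef k))) := by
    intro k
    apply Subtype.ext
    rw [halg01, coe_inclGen, hT, coe_coeff_splitGen]
    rfl
  have hlift : T ∈ Polynomial.lifts
      (algebraMap (ModelFieldGen K₁ F0) (ModelFieldGen K₁ F1)) := by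
    rw [Polynomial.lifts_iff_coeff_lifts]
    intro k
    exact ⟨_, (hcoefE k).symm⟩
  obtain ⟨Q, hQmap, -, hQm⟩ := Polynomial.lifts_and_natDegree_eq_and_monic hlift hTm
  have hQcoeff : ∀ k : ℕ, Q.coeff k
      = ratE K₁ F0 ((∏ i : ι, (X - C (v i)) : (LaurentSeries ℚ)[X]).coeff k)
          (h00 (hcoef k)) := by
    intro k
    apply (algebraMap (ModelFieldGen K₁ F0) (ModelFieldGen K₁ F1)).injective
    rw [← Polynomial.coeff_map, hQmap, hcoefE]
  have hQc : ∀ k : ℕ, Q.coeff k ∈ gaussClosure A₀ (ModelFieldGen K₁ F0) ϖ x0 := by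
    intro k
    have h1 := hQE00
      (ratE K₁ F00 ((∏ i : ι, (X - C (v i)) : (LaurentSeries ℚ)[X]).coeff k) (hcoef k)) 1
      (fun n => coeffEmb_coeff_mem_range K₁ A₀ (hcint k) n) hone
      ⟨0, 1, isUnit_one, by rw [map_one, IntermediateField.coe_one, HahnSeries.coeff_one,
        if_pos rfl]⟩
    rw [div_one] at h1
    have h2 := hpush _ h1
    rw [inclGen_ratE] at h2
    rw [hQcoeff]
    exact h2
  -- the discriminant
  set dQ : LaurentSeries ℚ := ∏ i : ι, ∏ j ∈ (Finset.univ : Finset ι).erase i, (v i - v j)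
    with hdQ
  obtain ⟨d00, hd00⟩ : ∃ d00 : ModelFieldGen K₁ F00,
      (d00 : LaurentSeries K₁) = coeffEmb K₁ dQ := ⟨ratE K₁ F00 dQ hdmem, rfl⟩
  obtain ⟨d, hdd⟩ : ∃ d : ModelFieldGen K₁ F0, d = inclGen K₁ h00 d00 := ⟨_, rfl⟩
  have hd : algebraMap (ModelFieldGen K₁ F0) (ModelFieldGen K₁ F1) d
      = ∏ i : ι, ∏ j ∈ (Finset.univ : Finset ι).erase i,
        (ratE K₁ F1 (v i) (hv i) - ratE K₁ F1 (v j) (hv j)) := by
    apply Subtype.ext
    rw [halg01, coe_inclGen, hdd, coe_inclGen, hd00, coe_discGen]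
  have hdinv : d⁻¹ ∈ gaussClosure A₀ (ModelFieldGen K₁ F0) ϖ x0 := by
    obtain ⟨n, hn⟩ := hdunit
    have hunit : ∃ (n : ℤ) (c : A₀), IsUnit c ∧
        algebraMap A₀ K₁ c = (d00 : LaurentSeries K₁).coeff n := by
      rcases hn with hn | hn
      · refine ⟨n, 1, isUnit_one, ?_⟩
        rw [hd00, coeffEmb_coeff, hn, map_one, map_one]
      · refine ⟨n, -1, isUnit_one.neg, ?_⟩
        rw [hd00, coeffEmb_coeff, hn, map_neg, map_neg, map_one, map_one]
    have hdc : ∀ n : ℤ, (d00 : LaurentSeries K₁).coeff n ∈ (algebraMap A₀ K₁).range := by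
      intro n
      rw [hd00]
      exact coeffEmb_coeff_mem_range K₁ A₀ hdint n
    have h1 := hQE00 1 d00 hone hdc hunit
    rw [one_div] at h1
    have h2 := hpush _ h1
    rw [map_inv₀, ← hdd] at h2
    exact h2
  -- generation
  have hadj : Algebra.adjoin (ModelFieldGen K₁ F0)
      ((fun i => ratE K₁ F1 (v i) (hv i)) '' ((Finset.univ : Finset ι) : Set ι)) = ⊤ := by
    have hroot : ∀ i : ι, IsIntegral (ModelFieldGen K₁ F0) (ratE K₁ F1 (v i) (hv i)) := by
      intro i
      refine ⟨Q, hQm, ?_⟩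
      rw [← Polynomial.eval_map, hQmap, hT, Polynomial.eval_prod]
      exact Finset.prod_eq_zero (Finset.mem_univ i)
        (by rw [Polynomial.eval_sub, Polynomial.eval_X, Polynomial.eval_C, sub_self])
    have hsub : (IntermediateField.adjoin (ModelFieldGen K₁ F0)
        ((fun i => ratE K₁ F1 (v i) (hv i)) '' ((Finset.univ : Finset ι) : Set ι))).toSubalgebra
        = Algebra.adjoin (ModelFieldGen K₁ F0)
          ((fun i => ratE K₁ F1 (v i) (hv i)) '' ((Finset.univ : Finset ι) : Set ι)) := by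
      refine IntermediateField.adjoin_toSubalgebra_of_isAlgebraic ?_
      rintro _ ⟨g, -, rfl⟩
      exact (hroot g).isAlgebraic
    rw [eq_top_iff]
    intro y _
    rw [← hsub]
    refine mem_subfield_of_gensGen K₁ h01 v hF1 hv
      (IntermediateField.adjoin (ModelFieldGen K₁ F0)
        ((fun i => ratE K₁ F1 (v i) (hv i)) '' ((Finset.univ : Finset ι) : Set ι))).toSubfield
      ?_ ?_ y
    · intro z
      rw [← halg01]
      exact IntermediateField.algebraMap_mem _ z
    · intro i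
      exact IntermediateField.subset_adjoin _ _ ⟨i, Finset.mem_coe.mpr (Finset.mem_univ i), rfl⟩
  -- injectivity of the generators
  have hvinjE : Set.InjOn (fun i => ratE K₁ F1 (v i) (hv i))
      ((Finset.univ : Finset ι) : Set ι) := by
    intro g _ g' _ h
    apply hvinj
    apply (coeffEmb K₁).injective
    exact congrArg Subtype.val h
  rw [hxx0]
  exact multiSplitGoodBasis A₀ (ModelFieldGen K₁ F0) (ModelFieldGen K₁ F1) hinj ϖ hϖ x0 hx0tr
    Finset.univ (fun i => ratE K₁ F1 (v i) (hv i)) hvinjE Q hQm hQc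
    (by rw [hQmap]) hadj d hd hdinv hGB0

end Main

end Fermat.Agent.H74.ES1KL
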